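import Fermat.Agent.LT.Tame.Abstract
import Fermat.Agent.LT.Tame.Split
import Fermat.Agent.LT.Descent.Tensor
import Fermat.Agent.LT.Descent.TensorProd
import Mathlib.GroupTheory.DoubleCoset

/-!
# Matching on deep levels

`σ` has order dividing three on a group `G'`, `j : G →* G'` has the fixed elements as range and
`W` is a small `σ`-stable subgroup on which cubing is injective up to conjugation.  A function
supported in `U ⊆ W`, bi-invariant under a normal subgroup `L` of `W`, has a transfer: the function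
supported on cubes whose value at `w ^ 3` is the sum over representatives of
`W_F \ W / K'`.  The diagonal functions then have equal fibre sums.
-/

set_option autoImplicit false

noncomputable section

namespace Fermat.Agent.Extra.LTGen.Deep

open Fermat.Agent.LT.Tame Fermat.Agent.LT.Descent
open scoped Classical

/-- Hypotheses on the nested levels `K' ≤ L ≤ W`, `U ≤ W` upstairs and `H` downstairs. -/
structure IsDeepLevel {G G' : Type*} [Group G] [Group G'] (σ : G' ≃* G') (j : G →* G')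
    (W U L K' : Subgroup G') (H : Subgroup G) : Prop where
  stable : ∀ x ∈ W, σ x ∈ W
  order_three : ∀ x, σ (σ (σ x)) = x
  fixed : ∀ x, σ x = x ↔ x ∈ j.range
  inj : Function.Injective j
  U_le : U ≤ W
  L_le : L ≤ W
  K_le : K' ≤ L
  L_normal : ∀ w ∈ W, ∀ l ∈ L, w⁻¹ * l * w ∈ L
  K_normal : ∀ w ∈ W, ∀ k ∈ K', w⁻¹ * k * w ∈ K'
  finite : (((↑) : G' → G' ⧸ K') '' (W : Set G')).Finite
  mem_H : ∀ g, g ∈ H ↔ j g ∈ K'
  eq_conj_of_pow : ∀ u ∈ W, ∀ v ∈ W, ∀ x : G', x⁻¹ * u ^ 3 * x = v ^ 3 → x⁻¹ * u * x = v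
  root_norm : ∀ δ ∈ U, ∃ u ∈ W, u ^ 3 = twNorm σ δ
  exists_h1 : ∀ δ ∈ U, ∀ u ∈ W, u ^ 3 = twNorm σ δ → σ u = δ⁻¹ * u * δ →
    ∃ x ∈ W, u⁻¹ * δ = x * (σ x)⁻¹
  root_step : ∀ u ∈ W, ∀ k ∈ K', ∃ u' ∈ W, u' ^ 3 = u ^ 3 * k ∧ u⁻¹ * u' ∈ L

variable {G G' : Type*} [Group G] [Group G'] {σ : G' ≃* G'} {j : G →* G'}
  {W U L K' : Subgroup G'} {H : Subgroup G}

namespace IsDeepLevel

variable (h : IsDeepLevel σ j W U L K' H)
include h

theorem σ_j (g : G) : σ (j g) = j g := (h.fixed _).2 ⟨g, rfl⟩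

theorem eq_of_pow_eq {u v : G'} (hu : u ∈ W) (hv : v ∈ W) (he : u ^ 3 = v ^ 3) : u = v := by
  simpa using h.eq_conj_of_pow u hu v hv 1 (by simpa using he)

theorem exists_fixed_pow {u : G'} (hu : u ∈ W) {g : G} (he : u ^ 3 = j g) :
    ∃ w, j w = u ∧ w ^ 3 = g := by
  obtain ⟨w, hw⟩ := (h.fixed u).1 (h.eq_of_pow_eq (h.stable u hu) hu (by
    rw [← map_pow, he, h.σ_j]))
  exact ⟨w, hw, h.inj (by rw [map_pow, hw, he])⟩

/-- Every element of `U` is twisted conjugate within `W` to a fixed one. -/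
theorem exists_twConj_fixed {δ : G'} (hδ : δ ∈ U) :
    ∃ x ∈ W, σ (x⁻¹ * δ * σ x) = x⁻¹ * δ * σ x ∧ x⁻¹ * δ * σ x ∈ W := by
  obtain ⟨u, hu, hu3⟩ := h.root_norm δ hδ
  have hconj : δ⁻¹ * u * δ ∈ W :=
    mul_mem (mul_mem (inv_mem (h.U_le hδ)) hu) (h.U_le hδ)
  have hσu : σ u = δ⁻¹ * u * δ := by
    refine h.eq_of_pow_eq (h.stable u hu) hconj ?_
    rw [← map_pow, hu3,
      show (δ⁻¹ * u * δ) ^ 3 = δ⁻¹ * u ^ 3 * δ by
        simpa only [inv_inv] using (conj_pow (a := δ⁻¹) (b := u) (i := 3)),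
      hu3, twNorm, map_mul, map_mul, h.order_three]
    group
  obtain ⟨x, hx, hex⟩ := h.exists_h1 δ hδ u hu hu3 hσu
  have hδ' : δ = u * x * (σ x)⁻¹ := by rw [mul_assoc, ← hex]; group
  have hfix : x⁻¹ * δ * σ x = x⁻¹ * u * x := by rw [hδ']; group
  refine ⟨x, hx, ?_, by rw [hfix]; exact mul_mem (mul_mem (inv_mem hx) hu) hx⟩
  rw [hfix]
  simp only [map_mul, map_inv, hσu]
  rw [hδ']
  group

/-- Twisted conjugacy between fixed elements of `W` is conjugacy by fixed elements. -/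
theorem fixed_of_twConj {u u' x : G'} (hu : u ∈ W) (hu' : u' ∈ W) (hσu : σ u = u)
    (hσu' : σ u' = u') (he : x⁻¹ * u * σ x = u') : σ x = x ∧ x⁻¹ * u * x = u' := by
  have hN : x⁻¹ * u ^ 3 * x = u' ^ 3 := by
    rw [← twNorm_fixed hσu, ← twNorm_fixed hσu', ← he, twNorm_twConj h.order_three]
  have hc := h.eq_conj_of_pow u hu u' hu' x hN
  exact ⟨mul_left_cancel (he.trans hc.symm), hc⟩

/-- A coset moved by a fixed `v` into `U` meets the fixed elements carrying `v` into `W`. -/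
theorem exists_fixed_rep {v g₀ z : G'} (hσv : σ v = v) (hσg : σ g₀ = g₀)
    (hv : g₀⁻¹ * v * g₀ ∈ W) (hz : z⁻¹ * v * σ z ∈ U) :
    ∃ k ∈ W, σ (z * k) = z * k ∧ (z * k)⁻¹ * v * (z * k) ∈ W := by
  obtain ⟨k, hk, hσw, hwW⟩ := h.exists_twConj_fixed hz
  have he : (g₀⁻¹ * (z * k))⁻¹ * (g₀⁻¹ * v * g₀) * σ (g₀⁻¹ * (z * k)) =
      k⁻¹ * (z⁻¹ * v * σ z) * σ k := by
    simp only [map_mul, map_inv, hσg]; group
  obtain ⟨hfx, hc⟩ := h.fixed_of_twConj hv hwW (by simp [hσv, hσg]) hσw he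
  refine ⟨k, hk, ?_, ?_⟩
  · rw [map_mul σ g₀⁻¹, map_inv, hσg] at hfx
    exact mul_left_cancel hfx
  · rw [← hc] at hwW
    convert hwW using 1
    group

/-- A translate `t` of `x ↦ δ σ x` is `x ↦ v σ x` with `v` a fixed cube root of the norm. -/
theorem exists_translate {γ : G} {δ : G'} (hN : twNorm σ δ = j γ)
    (hS : ∀ a b : G', Commute a (j γ) → Commute b (j γ) → Commute a b)
    (huniq : ∀ δ' : G', twNorm σ δ' = j γ → ∃ x, δ' = x⁻¹ * δ * σ x)
    {x₀ : G'} (hx₀ : x₀⁻¹ * δ * σ x₀ ∈ U) :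
    ∃ (t : G') (v g₀ : G), Commute t (j γ) ∧ v ^ 3 = γ ∧ δ = t⁻¹ * j v * σ t ∧
      (j g₀)⁻¹ * j v * j g₀ ∈ W := by
  obtain ⟨k, hk, hk', hkW⟩ := h.exists_twConj_fixed hx₀
  set x := x₀ * k with hx
  set u := x⁻¹ * δ * σ x with hu
  have hu0 : u = k⁻¹ * (x₀⁻¹ * δ * σ x₀) * σ k := by rw [hu, hx, map_mul]; group
  have hσu : σ u = u := by rw [hu0]; exact hk'
  have huW : u ∈ W := hu0 ▸ hkW
  have hu3 : u ^ 3 = x⁻¹ * j γ * x := by
    rw [← twNorm_fixed hσu, hu, twNorm_twConj h.order_three, hN]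
  set e := x * (σ x)⁻¹ with he
  have hσj := h.σ_j
  have hec : Commute e (j γ) := by
    have h1 : (σ x)⁻¹ * j γ * σ x = x⁻¹ * j γ * x := by
      calc (σ x)⁻¹ * j γ * σ x = σ (x⁻¹ * j γ * x) := by simp only [map_mul, map_inv, hσj]
        _ = σ (u ^ 3) := by rw [hu3]
        _ = _ := by rw [map_pow, hσu, hu3]
    show e * j γ = j γ * e
    calc e * j γ = x * ((σ x)⁻¹ * j γ * σ x) * (σ x)⁻¹ := by rw [he]; group
      _ = j γ * e := by rw [h1, he]; group
  have hδc : Commute δ (j γ) := by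
    have h1 : δ⁻¹ * j γ * δ = j γ := by
      rw [← hN]
      simp only [twNorm]
      calc δ⁻¹ * (δ * σ δ * σ (σ δ)) * δ = σ δ * σ (σ δ) * σ (σ (σ δ)) := by
            rw [h.order_three]; group
        _ = σ (twNorm σ δ) := by simp only [twNorm, map_mul]
        _ = _ := by rw [hN, hσj, ← hN]; rfl
    show δ * j γ = j γ * δ
    conv_lhs => rw [← h1]
    group
  have hσc : ∀ {a : G'}, Commute a (j γ) → Commute (σ a) (j γ) := fun {a} ha => by
    have := ha.map σ.toMonoidHom
    rwa [MulEquiv.coe_toMonoidHom, hσj] at this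
  have hNe : twNorm σ e = 1 := by
    simp only [he, twNorm, map_mul, map_inv, h.order_three]; group
  have hNeδ : twNorm σ (e * δ) = j γ := by
    have c1 : Commute δ (σ e) := hS _ _ hδc (hσc hec)
    have c2 : Commute δ (σ (σ e)) := hS _ _ hδc (hσc (hσc hec))
    have c3 : Commute (σ δ) (σ (σ e)) := hS _ _ (hσc hδc) (hσc (hσc hec))
    calc twNorm σ (e * δ) = e * (δ * σ e) * σ δ * σ (σ e) * σ (σ δ) := by
          simp only [twNorm, map_mul, mul_assoc]
      _ = e * σ e * δ * (σ δ * σ (σ e)) * σ (σ δ) := by rw [c1.eq]; simp only [mul_assoc]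
      _ = e * σ e * (δ * σ (σ e)) * σ δ * σ (σ δ) := by rw [c3.eq]; simp only [mul_assoc]
      _ = twNorm σ e * twNorm σ δ := by rw [c2.eq]; simp only [twNorm, mul_assoc]
      _ = j γ := by rw [hNe, one_mul, hN]
  obtain ⟨t, ht⟩ := huniq _ hNeδ
  have htc : Commute t (j γ) := by
    have h1 := twNorm_twConj h.order_three δ t
    rw [← ht, hNeδ, hN] at h1
    show t * j γ = j γ * t
    conv_lhs => rw [h1]
    group
  have hσtc : Commute (t⁻¹ * σ t) δ := hS _ _ (htc.inv_left.mul_left (hσc htc)) hδc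
  have he' : e = t⁻¹ * σ t := by
    have h1 : e * δ = t⁻¹ * σ t * δ := by
      rw [ht, mul_assoc, (hS δ (σ t) hδc (hσc htc)).eq, ← mul_assoc]
    exact mul_right_cancel h1
  have hfx : σ (t * x) = t * x := by
    rw [map_mul]
    calc σ t * σ x = t * (t⁻¹ * σ t) * σ x := by group
      _ = t * x := by rw [← he', he]; group
  obtain ⟨g₀, hg₀⟩ := (h.fixed _).1 hfx
  obtain ⟨w, hw, -⟩ := h.exists_fixed_pow huW (g := g₀⁻¹ * γ * g₀) (by
    rw [hu3, map_mul, map_mul, map_inv, hg₀]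
    calc x⁻¹ * j γ * x = x⁻¹ * t⁻¹ * (t * j γ) * x := by group
      _ = _ := by rw [htc.eq]; group)
  refine ⟨t, g₀ * w * g₀⁻¹, g₀, htc, h.inj ?_, ?_, ?_⟩
  · rw [map_pow, map_mul, map_mul, map_inv, hw, conj_pow, hu3, hg₀]
    calc t * x * (x⁻¹ * j γ * x) * (t * x)⁻¹ = t * j γ * t⁻¹ := by group
      _ = j γ := by rw [htc.eq]; group
  · have hσx : σ x = (σ t)⁻¹ * (t * x) := by rw [eq_inv_mul_iff_mul_eq, ← map_mul, hfx]
    calc δ = x * u * (σ x)⁻¹ := by rw [hu]; group
      _ = _ := by rw [hσx, map_mul, map_mul, map_inv, hw, hg₀]; group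
  · convert huW using 1
    rw [map_mul, map_mul, map_inv, hw]
    group

end IsDeepLevel

section Transfer

variable (j W K')

/-- Double cosets of the fixed part of `W` and of `K'` in `W`. -/
abbrev Rep : Type _ :=
  DoubleCoset.Quotient ((j.range.subgroupOf W : Subgroup W) : Set W)
    ((K'.subgroupOf W : Subgroup W) : Set W)

variable {j W K'}

/-- The chosen representative in `W`. -/
def rep (q : Rep j W K') : G' := (q.out : W)

theorem rep_mem (q : Rep j W K') : rep q ∈ W := (q.out : W).2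

/-- The sum of `F` over the twisted translates by the representatives. -/
def repSum (σ : G' ≃* G') (j : G →* G') (W K' : Subgroup G') (F : G' → ℂ) (v : G') : ℂ :=
  ∑ᶠ q : Rep j W K', F ((rep q)⁻¹ * v * σ (rep q))

/-- The transfer: supported on the cubes of `W ∩ G`. -/
def transferFun (σ : G' ≃* G') (j : G →* G') (W K' : Subgroup G') (F : G' → ℂ) (g : G) : ℂ :=
  if hg : ∃ w : G, j w ∈ W ∧ w ^ 3 = g then repSum σ j W K' F (j hg.choose) else 0

variable (h : IsDeepLevel σ j W U L K' H) {F : G' → ℂ}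
include h

theorem IsDeepLevel.K_le_W : K' ≤ W := h.K_le.trans h.L_le

theorem IsDeepLevel.finite_rep : Finite (Rep j W K') := by
  have := h.finite.to_subtype
  refine Finite.of_surjective (fun c : ((↑) : G' → G' ⧸ K') '' (W : Set G') =>
    DoubleCoset.mk (j.range.subgroupOf W) (K'.subgroupOf W) ⟨c.2.choose, c.2.choose_spec.1⟩) ?_
  intro q
  have hc : ((rep q : G') : G' ⧸ K') ∈ ((↑) : G' → G' ⧸ K') '' (W : Set G') :=
    ⟨_, rep_mem q, rfl⟩
  refine ⟨⟨_, hc⟩, ?_⟩
  conv_rhs => rw [← DoubleCoset.out_eq' _ _ q]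
  refine (DoubleCoset.eq _ _ _ _).2 ⟨1, one_mem _, ⟨hc.choose⁻¹ * rep q,
    mul_mem (inv_mem hc.choose_spec.1) (rep_mem q)⟩, ?_, ?_⟩
  · exact Subgroup.mem_subgroupOf.2 (QuotientGroup.eq.1 hc.choose_spec.2)
  · exact Subtype.ext (by simp [rep])

/-- A coset in `W` has a unique representative up to `H`. -/
theorem IsDeepLevel.rep_unique {q q' : Rep j W K'} {g g' : G}
    (he : ((j g * rep q : G') : G' ⧸ K') = ((j g' * rep q' : G') : G' ⧸ K')) :
    q = q' ∧ (g : G ⧸ H) = (g' : G ⧸ H) := by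
  rw [QuotientGroup.eq] at he
  set k := (j g * rep q)⁻¹ * (j g' * rep q') with hk
  have hd : j (g⁻¹ * g') = rep q * k * (rep q')⁻¹ := by rw [hk, map_mul, map_inv]; group
  have hdW : j (g⁻¹ * g') ∈ W :=
    hd ▸ mul_mem (mul_mem (rep_mem q) (h.K_le_W he)) (inv_mem (rep_mem q'))
  obtain rfl : q = q' := by
    rw [← DoubleCoset.out_eq' _ _ q, ← DoubleCoset.out_eq' _ _ q']
    refine (DoubleCoset.eq _ _ _ _).2 ⟨⟨_, inv_mem hdW⟩, ?_, ⟨k, h.K_le_W he⟩, he, ?_⟩
    · exact Subgroup.mem_subgroupOf.2 (inv_mem ⟨_, rfl⟩)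
    · refine Subtype.ext ?_
      show rep q' = (j (g⁻¹ * g'))⁻¹ * rep q * k
      rw [hd]; group
  refine ⟨rfl, QuotientGroup.eq.2 ((h.mem_H _).2 ?_)⟩
  rw [hd]
  simpa using h.K_normal _ (inv_mem (rep_mem q)) k he

theorem IsDeepLevel.exists_rep {k : G'} (hk : k ∈ W) :
    ∃ (d : G) (q : Rep j W K'), ((j d * rep q : G') : G' ⧸ K') = (k : G' ⧸ K') := by
  obtain ⟨a, b, ha, hb, he⟩ :=
    DoubleCoset.mk_out_eq_mul (j.range.subgroupOf W) (K'.subgroupOf W) (⟨k, hk⟩ : W)
  obtain ⟨d, hd⟩ := Subgroup.mem_subgroupOf.1 ha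
  refine ⟨d⁻¹, DoubleCoset.mk _ _ ⟨k, hk⟩, QuotientGroup.eq.2 ?_⟩
  have he' := congrArg Subtype.val he
  simp only [Subgroup.coe_mul] at he'
  rw [rep, he', map_inv, hd]
  simpa [mul_assoc] using inv_mem (Subgroup.mem_subgroupOf.1 hb)

/-- The root in `W` is unique. -/
theorem IsDeepLevel.transferFun_pow {w : G} (hw : j w ∈ W) :
    transferFun σ j W K' F (w ^ 3) = repSum σ j W K' F (j w) := by
  have hg : ∃ w' : G, j w' ∈ W ∧ w' ^ 3 = w ^ 3 := ⟨w, hw, rfl⟩
  rw [transferFun, dif_pos hg]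
  congr 1
  exact h.eq_of_pow_eq hg.choose_spec.1 hw (by rw [← map_pow, ← map_pow, hg.choose_spec.2])

omit h in
theorem exists_of_transferFun_ne_zero {g : G} (hne : transferFun σ j W K' F g ≠ 0) :
    ∃ w : G, j w ∈ W ∧ w ^ 3 = g ∧ repSum σ j W K' F (j w) ≠ 0 := by
  rw [transferFun] at hne
  split at hne
  · next hg => exact ⟨_, hg.choose_spec.1, hg.choose_spec.2, hne⟩
  · exact absurd rfl hne

theorem IsDeepLevel.repSum_mul_right (hF : IsBiInvariant L F) {v l : G'} (hl : l ∈ L) :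
    repSum σ j W K' F (v * l) = repSum σ j W K' F v := by
  refine finsum_congr fun q => ?_
  have hm := h.L_normal _ (h.stable _ (rep_mem q)) l hl
  calc F ((rep q)⁻¹ * (v * l) * σ (rep q))
      = F (1 * ((rep q)⁻¹ * v * σ (rep q)) * ((σ (rep q))⁻¹ * l * σ (rep q))) := by
        congr 1; group
    _ = _ := hF _ (one_mem L) _ hm _

theorem IsDeepLevel.transferFun_mul_right (hF : IsBiInvariant L F) {g k : G} (hk : k ∈ H) :
    transferFun σ j W K' F (g * k) = transferFun σ j W K' F g := by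
  have key : ∀ w : G, j w ∈ W → ∀ k ∈ H,
      transferFun σ j W K' F (w ^ 3 * k) = repSum σ j W K' F (j w) := by
    intro w hw k hk
    obtain ⟨u', hu', hu3, hl⟩ := h.root_step _ hw _ ((h.mem_H k).1 hk)
    obtain ⟨w', hw', hw3⟩ := h.exists_fixed_pow hu' (g := w ^ 3 * k) (by
      rw [hu3, map_mul, map_pow])
    rw [← hw3, h.transferFun_pow (hw' ▸ hu'), hw',
      show u' = j w * ((j w)⁻¹ * u') by group, h.repSum_mul_right hF hl]
  by_cases hg : ∃ w : G, j w ∈ W ∧ w ^ 3 = g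
  · obtain ⟨w, hw, rfl⟩ := hg
    rw [key w hw k hk, h.transferFun_pow hw]
  · have hg' : ¬∃ w : G, j w ∈ W ∧ w ^ 3 = g * k := by
      rintro ⟨w, hw, he⟩
      obtain ⟨u', hu', hu3, -⟩ := h.root_step _ hw _ ((h.mem_H k⁻¹).1 (inv_mem hk))
      obtain ⟨w', hw', hw3⟩ := h.exists_fixed_pow hu' (g := g) (by
        rw [hu3, ← map_pow, he, ← map_mul, mul_inv_cancel_right])
      exact hg ⟨w', hw' ▸ hu', hw3⟩
    rw [transferFun, transferFun, dif_neg hg, dif_neg hg']

/-- The transfer is bi-invariant under `H`. -/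
theorem IsDeepLevel.isBiInvariant_transferFun (hF : IsBiInvariant L F) :
    IsBiInvariant H (transferFun σ j W K' F) := by
  intro k hk l hl g
  rw [h.transferFun_mul_right hF hl]
  by_cases hg : transferFun σ j W K' F g = 0 ∧ transferFun σ j W K' F (k * g) = 0
  · rw [hg.1, hg.2]
  · have hgW : j g ∈ W := by
      rw [not_and_or] at hg
      rcases hg with hg | hg <;> obtain ⟨w, hw, he, -⟩ := exists_of_transferFun_ne_zero hg
      · rw [← he, map_pow]; exact pow_mem hw 3
      · rw [show g = k⁻¹ * w ^ 3 by rw [he]; group, map_mul, map_inv, map_pow]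
        exact mul_mem (inv_mem (h.K_le_W ((h.mem_H k).1 hk))) (pow_mem hw 3)
    rw [show k * g = g * (g⁻¹ * k * g) by group]
    refine h.transferFun_mul_right hF ((h.mem_H _).2 ?_)
    rw [map_mul, map_mul, map_inv]
    exact h.K_normal _ hgW _ ((h.mem_H k).1 hk)

theorem IsDeepLevel.finite_cosets : (((↑) : G → G ⧸ H) '' {g : G | j g ∈ W}).Finite := by
  let ψ : G ⧸ H → G' ⧸ K' := Quotient.map' j fun a b hab => by
    rw [QuotientGroup.leftRel_apply] at hab ⊢
    rw [← map_inv, ← map_mul, ← h.mem_H]; exact hab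
  refine Set.Finite.of_finite_image (f := ψ) (h.finite.subset ?_) ?_
  · rintro _ ⟨_, ⟨g, hg, rfl⟩, rfl⟩
    exact ⟨j g, hg, rfl⟩
  · intro a _ b _ hab
    induction a using QuotientGroup.induction_on with | _ a =>
    induction b using QuotientGroup.induction_on with | _ b =>
    have hab' : ((j a : G') : G' ⧸ K') = (j b : G') := hab
    rw [QuotientGroup.eq, ← map_inv, ← map_mul, ← h.mem_H] at hab'
    exact QuotientGroup.eq.2 hab'

/-- The invariant matrix of the transfer. -/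
def transferKer (hF : IsBiInvariant L F) : LKer G (G ⧸ H) :=
  LKer.ofBase (cosetKernel (h.isBiInvariant_transferFun hF)) (cosetKernel_smul _)
    ((1 : G) : G ⧸ H)
    (h.finite_cosets.subset fun c hc => by
      induction c using QuotientGroup.induction_on with | _ g =>
      rw [Function.mem_support, cosetKernel_mk, inv_one, one_mul] at hc
      obtain ⟨w, hw, rfl, -⟩ := exists_of_transferFun_ne_zero hc
      exact ⟨_, show j (w ^ 3) ∈ W from map_pow j w 3 ▸ pow_mem hw 3, rfl⟩)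
    (h.finite_cosets.subset fun c hc => by
      induction c using QuotientGroup.induction_on with | _ g =>
      rw [Function.mem_support, cosetKernel_mk, mul_one] at hc
      obtain ⟨w, hw, he, -⟩ := exists_of_transferFun_ne_zero hc
      refine ⟨g, ?_, rfl⟩
      show j g ∈ W
      rw [← inv_inv g, ← he, map_inv, map_pow]
      exact inv_mem (pow_mem hw 3))

theorem transferKer_apply (hF : IsBiInvariant L F) (a b : G) :
    transferKer h hF (a : G ⧸ H) (b : G ⧸ H) = transferFun σ j W K' F (a⁻¹ * b) := rfl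

end Transfer

section Match

variable (h : IsDeepLevel σ j W U L K' H) {F : G' → ℂ}
include h

/-- The support of the transfer consists of norms. -/
theorem IsDeepLevel.transfer_eq_zero_of_no_norm {γ : G}
    (hno : ∀ δ, twNorm σ δ ≠ j γ) (g : G) :
    transferFun σ j W K' F (g⁻¹ * γ * g) = 0 := by
  by_contra hne
  obtain ⟨w, -, hw, -⟩ := exists_of_transferFun_ne_zero hne
  refine hno (j (g * w * g⁻¹)) ?_
  rw [twNorm_fixed (h.σ_j _), ← map_pow, conj_pow, hw]
  congr 1
  group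

/-- **Deep matching.** The twisted diagonal function of `F` and the diagonal function of its
transfer have equal fibre sums. -/
theorem IsDeepLevel.hasFibreMatch (hsupp : ∀ g, F g ≠ 0 → g ∈ U) {γ : G} {δ : G'}
    (hN : twNorm σ δ = j γ)
    (hS : ∀ a b : G', Commute a (j γ) → Commute b (j γ) → Commute a b)
    (huniq : ∀ δ' : G', twNorm σ δ' = j γ → ∃ x, δ' = x⁻¹ * δ * σ x)
    {T : Type*} [Group T] [MulAction T (G ⧸ H)] [MulAction T (G' ⧸ K')] (φ : T →* G)
    (hφ : ∀ t, Commute (φ t) γ) (hT : ∀ (t : T) (y : G ⧸ H), t • y = φ t • y)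
    (hT' : ∀ (t : T) (c : G' ⧸ K'), t • c = j (φ t) • c)
    {fd : G ⧸ H → ℂ} (hfd : ∀ g : G, fd g = transferFun σ j W K' F (g⁻¹ * γ * g))
    {fv : G' ⧸ K' → ℂ} (hfv : ∀ x : G', fv x = F (x⁻¹ * δ * σ x)) :
    HasFibreMatch T fd fv := by
  by_cases hex : ∃ x : G', x⁻¹ * δ * σ x ∈ U
  swap
  · have hv0 : ∀ c, fv c = 0 := fun c => by
      induction c using QuotientGroup.induction_on with | _ x =>
      rw [hfv]; by_contra hne; exact hex ⟨x, hsupp _ hne⟩
    have hd0 : ∀ y, fd y = 0 := fun y => by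
      induction y using QuotientGroup.induction_on with | _ g =>
      rw [hfd]
      by_contra hne
      obtain ⟨w, -, hw3, hne'⟩ := exists_of_transferFun_ne_zero hne
      obtain ⟨q, hq⟩ := not_forall.1 fun h0 => hne' (finsum_eq_zero_of_forall_eq_zero h0)
      obtain ⟨x, hx⟩ := huniq (j (g * w * g⁻¹)) (by
        rw [twNorm_fixed (h.σ_j _), ← map_pow, conj_pow, hw3]; congr 1; group)
      refine hex ⟨x * j g * rep q, ?_⟩
      have hw' : j w = (j g)⁻¹ * (x⁻¹ * δ * σ x) * j g := by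
        rw [← hx, map_mul, map_mul, map_inv]; group
      convert hsupp _ hq using 1
      rw [hw', map_mul, map_mul, h.σ_j]
      group
    refine hasFibreMatch_iff.2 ⟨some, fun _ => none, isFibration_some _,
      ⟨fun _ _ => rfl, fun c hc => absurd (hv0 c) hc, fun m => ?_⟩, fun m => ?_⟩
    · exact Set.finite_empty.subset fun c ⟨hc, _⟩ => hc (hv0 c)
    · simp [matchSum, hv0, hd0]
  obtain ⟨x₀, hx₀⟩ := hex
  obtain ⟨tr, v, g₀, htc, hv3, hδ, hvW⟩ := h.exists_translate hN hS huniq hx₀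
  have hσv : σ (j v) = j v := h.σ_j v
  let Z : (G ⧸ H) × Rep j W K' → G' ⧸ K' := fun p =>
    Quotient.liftOn' p.1 (fun g => ((tr⁻¹ * (j g * rep p.2) : G') : G' ⧸ K')) fun a b hab => by
      rw [QuotientGroup.leftRel_apply, h.mem_H] at hab
      refine QuotientGroup.eq.2 ?_
      have := h.K_normal _ (rep_mem p.2) _ hab
      convert this using 1
      rw [map_mul, map_inv]; group
  have hZ : ∀ (g : G) q, Z ((g : G ⧸ H), q) = ((tr⁻¹ * (j g * rep q) : G') : G' ⧸ K') :=
    fun g q => rfl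
  have hZinj : Function.Injective Z := by
    rintro ⟨a, q⟩ ⟨b, q'⟩ he
    induction a using QuotientGroup.induction_on with | _ a =>
    induction b using QuotientGroup.induction_on with | _ b =>
    rw [hZ, hZ] at he
    have he' := congrArg (tr • ·) he
    simp only [MulAction.Quotient.smul_coe, smul_eq_mul, mul_inv_cancel_left] at he'
    obtain ⟨rfl, hab⟩ := h.rep_unique he'
    rw [hab]
  have hZT : ∀ (t : T) m q, Z (t • m, q) = t • Z (m, q) := by
    intro t m q
    induction m using QuotientGroup.induction_on with | _ a =>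
    have hc : Commute (j (φ t)) tr⁻¹ := hS _ _ ((hφ t).map j) htc.inv_left
    rw [hT, hT', MulAction.Quotient.smul_coe, smul_eq_mul, hZ, hZ, MulAction.Quotient.smul_coe,
      smul_eq_mul, map_mul, ← mul_assoc (j (φ t)), hc.eq]
    simp only [mul_assoc]
  have hval : ∀ (g : G) q, fv (Z ((g : G ⧸ H), q)) =
      F ((rep q)⁻¹ * j (g⁻¹ * v * g) * σ (rep q)) := by
    intro g q
    rw [hZ, hfv]
    congr 1
    rw [hδ, map_mul σ tr⁻¹, map_mul σ (j g), map_inv, h.σ_j, map_mul, map_mul, map_inv]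
    group
  have hrange : ∀ c, fv c ≠ 0 → c ∈ Set.range Z := by
    intro c hc
    induction c using QuotientGroup.induction_on with | _ x =>
    rw [hfv, hδ] at hc
    have hz : (tr * x)⁻¹ * j v * σ (tr * x) ∈ U := by
      convert hsupp _ hc using 1
      rw [map_mul]; group
    obtain ⟨k, hk, hfix, -⟩ := h.exists_fixed_rep hσv (h.σ_j g₀) hvW hz
    obtain ⟨g, hg⟩ := (h.fixed _).1 hfix
    obtain ⟨d, q, hdq⟩ := h.exists_rep (inv_mem hk)
    refine ⟨(((g * d : G) : G ⧸ H), q), ?_⟩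
    rw [hZ, map_mul, hg]
    have := congrArg ((tr⁻¹ * (tr * x * k)) • ·) hdq
    simp only [MulAction.Quotient.smul_coe, smul_eq_mul] at this
    rw [show tr⁻¹ * (tr * x * k * j d * rep q) = tr⁻¹ * (tr * x * k) * (j d * rep q) by group,
      this]
    congr 1
    group
  let p' : G' ⧸ K' → Option (G ⧸ H) := fun c =>
    if hc : c ∈ Set.range Z then some hc.choose.1 else none
  have hp' : ∀ m q, p' (Z (m, q)) = some m := by
    intro m q
    have hc : Z (m, q) ∈ Set.range Z := ⟨_, rfl⟩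
    simp only [p', dif_pos hc]
    rw [hZinj hc.choose_spec]
  have hfin : Finite (Rep j W K') := h.finite_rep
  have hfib : ∀ m, {c | p' c = some m} = Set.range fun q => Z (m, q) := by
    intro m
    ext c
    constructor
    · intro hc
      by_cases hr : c ∈ Set.range Z
      · simp only [Set.mem_ofPred_eq, p', dif_pos hr, Option.some.injEq] at hc
        exact ⟨hr.choose.2, by rw [← hc]; exact hr.choose_spec⟩
      · exfalso
        have hnone : p' c = none := dif_neg hr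
        exact Option.some_ne_none m (hc.symm.trans hnone)
    · rintro ⟨q, rfl⟩; exact hp' m q
  refine hasFibreMatch_iff.2 ⟨some, p', isFibration_some _, ⟨?_, fun c hc => ?_, fun m => ?_⟩,
    fun m => ?_⟩
  · intro t c
    by_cases hc : c ∈ Set.range Z
    · obtain ⟨⟨m, q⟩, rfl⟩ := hc
      rw [← hZT, hp', hp', Option.map_some]
    · have hc' : t • c ∉ Set.range Z := fun ⟨⟨m, q⟩, he⟩ =>
        hc ⟨(t⁻¹ • m, q), by rw [hZT, he, inv_smul_smul]⟩
      simp only [p', dif_neg hc, dif_neg hc', Option.map_none]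
  · obtain ⟨⟨m, q⟩, rfl⟩ := hrange c hc
    rw [hp']; rfl
  · exact (Set.finite_range fun q => Z (m, q)).subset fun c hc => hfib m ▸ hc.2
  · induction m using QuotientGroup.induction_on with | _ g =>
    unfold matchSum
    rw [show {y : G ⧸ H | some y = some (g : G ⧸ H)} = {(g : G ⧸ H)} by ext; simp,
      finsum_mem_singleton, hfib, finsum_mem_range fun q q' e => (Prod.mk.inj (hZinj e)).2, hfd]
    simp only [hval]
    set v' := g⁻¹ * v * g with hv'
    have hγ : g⁻¹ * γ * g = v' ^ 3 := by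
      rw [hv', ← hv3]
      simpa only [inv_inv] using (conj_pow (a := g⁻¹) (b := v) (i := 3)).symm
    by_cases hW : j v' ∈ W
    · rw [hγ, h.transferFun_pow hW, repSum]
    · have hl : ∀ q : Rep j W K', F ((rep q)⁻¹ * j v' * σ (rep q)) = 0 := by
        intro q
        by_contra hne
        obtain ⟨k, hk, -, hkW⟩ := h.exists_fixed_rep (v := j v') (g₀ := j (g⁻¹ * g₀)) (h.σ_j _)
          (h.σ_j _) (by
            convert hvW using 1
            simp only [hv', map_mul, map_inv]; group) (hsupp _ hne)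
        refine hW ?_
        have hm := mul_mem (rep_mem q) hk
        have := mul_mem (mul_mem hm hkW) (inv_mem hm)
        convert this using 1
        group
      rw [finsum_eq_zero_of_forall_eq_zero hl]
      by_contra hne
      obtain ⟨w, hw, hw3, -⟩ := exists_of_transferFun_ne_zero hne
      refine hW ?_
      have hc := h.eq_conj_of_pow _ hvW _ hw (j (g₀⁻¹ * g)) (by
        rw [← map_pow j w, hw3, hγ, hv', map_pow, map_mul j (g⁻¹ * v), map_mul j g⁻¹, map_inv j g,
          show ((j g₀)⁻¹ * j v * j g₀) ^ 3 = (j g₀)⁻¹ * j v ^ 3 * j g₀ by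
            simpa only [inv_inv] using (conj_pow (a := (j g₀)⁻¹) (b := j v) (i := 3)),
          show ((j g)⁻¹ * j v * j g) ^ 3 = (j g)⁻¹ * j v ^ 3 * j g by
            simpa only [inv_inv] using (conj_pow (a := (j g)⁻¹) (b := j v) (i := 3)),
          map_mul, map_inv]
        group)
      have : j v' = j w := by
        rw [← hc, hv']
        simp only [map_mul, map_inv]
        group
      rwa [this]

end Match

end Fermat.Agent.Extra.LTGen.Deep

end
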