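import Fermat.Agent.Extra.LTGen.Deep.Roots
import Fermat.Agent.Extra.LTGen.Descent.Levels
import Fermat.Agent.LT.Tame.Completion
import Mathlib.RingTheory.Ideal.Quotient.Index

/-!
# Deep levels in a completion

The simple root lemma in the completion, the images of the principal congruence groups in `PGL₂`,
and finiteness of their indices.
-/

set_option autoImplicit false

noncomputable section

namespace Fermat.Agent.Extra.LTGen.Deep

open IsDedekindDomain IsDedekindDomain.HeightOneSpectrum NumberField Matrix IsLocalRing WithZero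
open Fermat.Agent.LT.Tame Fermat.Agent.LT.Aleph
open scoped MatrixGroups

variable {K : Type*} [Field K] [NumberField K] (w : HeightOneSpectrum (𝓞 K))

/-- The valuation of the completion. -/
abbrev locVal : Valuation (w.adicCompletion K) (WithZero (Multiplicative ℤ)) := Valued.v

/-- The valuation of a natural number at `w`. -/
abbrev natVal (n : ℕ) : WithZero (Multiplicative ℤ) := w.intValuation (n : 𝓞 K)

theorem locVal_natCast (n : ℕ) : locVal w (n : w.adicCompletion K) = natVal w n := by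
  rw [locVal, natVal, ← map_natCast (algebraMap K (w.adicCompletion K)) n]
  rw [show (n : K) = algebraMap (𝓞 K) K n from (map_natCast _ n).symm]
  rw [algebraMap_adicCompletion, Function.comp_apply, Algebra.algebraMap_self, RingHom.id_apply,
    valuedAdicCompletion_eq_valuation', valuation_of_algebraMap]

theorem natVal_ne_zero {n : ℕ} (hn : n ≠ 0) : natVal w n ≠ 0 :=
  intValuation_ne_zero w _ (Nat.cast_ne_zero.2 hn)

theorem natVal_mul (m n : ℕ) : natVal w (m * n) = natVal w m * natVal w n := by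
  rw [natVal, Nat.cast_mul, map_mul]

theorem natVal_le_one (n : ℕ) : natVal w n ≤ 1 := w.intValuation_le_one _

theorem natVal_le_of_dvd {m n : ℕ} (h : m ∣ n) : natVal w n ≤ natVal w m := by
  obtain ⟨c, rfl⟩ := h
  rw [natVal_mul]
  exact mul_le_of_le_one_right' (natVal_le_one w c)

/-- **Simple roots.** -/
theorem hasSeriesRoot : HasSeriesRoot (locVal w) := by
  intro c₂ c₃ h₂ h₃
  let a₂ : w.adicCompletionIntegers K := ⟨c₂, h₂.le⟩
  let a₃ : w.adicCompletionIntegers K := ⟨c₃, h₃.le⟩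
  have hm : ∀ {a : w.adicCompletionIntegers K}, Valued.v (a : w.adicCompletion K) < 1 →
      a ∈ maximalIdeal (w.adicCompletionIntegers K) := fun {a} ha =>
    (CFT.Kummer.kl_mem_maximal_iff w a).2 ha
  have m₂ := hm (a := a₂) h₂
  have m₃ := hm (a := a₃) h₃
  obtain ⟨s, hs, hs1⟩ := HenselianRing.is_henselian
    (I := maximalIdeal (w.adicCompletionIntegers K))
    (Polynomial.X ^ 3 - (Polynomial.X ^ 2 + (Polynomial.C a₂ * Polynomial.X + Polynomial.C a₃)))
    (Polynomial.monic_X_pow_sub (n := 3) (by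
      refine lt_of_le_of_lt (Polynomial.degree_add_le _ _) (max_lt ?_ ?_)
      · exact (Polynomial.degree_X_pow_le 2).trans_lt (by exact_mod_cast (by norm_num : 2 < 3))
      · exact lt_of_le_of_lt Polynomial.degree_linear_le (by exact_mod_cast (by norm_num : 1 < 3))))
    1
    (by
      rw [← residue_eq_zero_iff]
      simp [residue_eq_zero_iff _ |>.2 m₂, residue_eq_zero_iff _ |>.2 m₃])
    (by
      convert isUnit_one using 1
      simp [Ideal.Quotient.eq_zero_iff_mem.2 m₂, map_ofNat]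
      norm_num)
  have hsu : IsUnit s := by
    refine isUnit_of_residue_eq (n := 1) ?_ (by simp)
    rw [Nat.cast_one, ← sub_eq_zero, ← map_one (residue _), ← map_sub, residue_eq_zero_iff]
    exact hs1
  obtain ⟨u, hu⟩ := hsu
  refine ⟨((↑u⁻¹ : w.adicCompletionIntegers K) : w.adicCompletion K), (↑u⁻¹ : w.adicCompletionIntegers K).2, ?_⟩
  have he : s ^ 3 = s ^ 2 + (a₂ * s + a₃) := by
    simpa [Polynomial.IsRoot, sub_eq_zero] using hs
  have hus : (↑u⁻¹ : w.adicCompletionIntegers K) * s = 1 := by rw [← hu, Units.inv_mul]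
  have key : (↑u⁻¹ : w.adicCompletionIntegers K) + a₂ * (↑u⁻¹) ^ 2 + a₃ * (↑u⁻¹) ^ 3 = 1 := by
    linear_combination (-(↑u⁻¹ : w.adicCompletionIntegers K) ^ 3) * he +
      (1 + (↑u⁻¹ : w.adicCompletionIntegers K) * s + ((↑u⁻¹ : w.adicCompletionIntegers K) * s) ^ 2
        - (↑u⁻¹ : w.adicCompletionIntegers K) * (1 + (↑u⁻¹ : w.adicCompletionIntegers K) * s)
        - a₂ * (↑u⁻¹ : w.adicCompletionIntegers K) ^ 2) * hus
  simpa [a₂, a₃] using congrArg Subtype.val key

variable {w} {b b' : WithZero (Multiplicative ℤ)}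

/-- An element of a congruence group is congruent to one. -/
theorem cong_of_mem {γ : GL (Fin 2) (w.adicCompletion K)} (h : γ ∈ congrLoc w b) :
    Cong (locVal w) b (γ : Matrix (Fin 2) (Fin 2) (w.adicCompletion K)) :=
  (mem_congrLoc.1 h).2.1

/-- A matrix congruent to one below one gives an element of the congruence group. -/
theorem mem_congrLoc_of_cong {γ : GL (Fin 2) (w.adicCompletion K)} (hb : b < 1)
    (h : Cong (locVal w) b (γ : Matrix (Fin 2) (Fin 2) (w.adicCompletion K))) :
    γ ∈ congrLoc w b := by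
  have hi : Cong (locVal w) b ((γ⁻¹ : GL (Fin 2) (w.adicCompletion K)) :
      Matrix (Fin 2) (Fin 2) (w.adicCompletion K)) :=
    h.inv hb (by rw [← Units.val_mul, mul_inv_cancel, Units.val_one])
  exact mem_congrLoc.2 ⟨fun i j => ⟨h.le_one hb.le i j, hi.le_one hb.le i j⟩, h, hi⟩

theorem congrLoc_mono (h : b ≤ b') : congrLoc w b ≤ congrLoc w b' := fun _ hγ =>
  ⟨hγ.1, fun i j => (hγ.2.1 i j).trans h, fun i j => (hγ.2.2 i j).trans h⟩

variable (w) in
/-- The image of a congruence group in `PGL₂`. -/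
abbrev congrPGL (b : WithZero (Multiplicative ℤ)) : Subgroup PGL(2, w.adicCompletion K) :=
  (congrLoc w b).map ProjGenLinGroup.mk

theorem mem_congrPGL (hb : b < 1) {g : PGL(2, w.adicCompletion K)} :
    g ∈ congrPGL w b ↔ ∃ γ : GL (Fin 2) (w.adicCompletion K),
      Cong (locVal w) b (γ : Matrix (Fin 2) (Fin 2) (w.adicCompletion K)) ∧
        ProjGenLinGroup.mk γ = g :=
  ⟨fun h => (Subgroup.mem_map.1 h).imp fun _ h => ⟨cong_of_mem h.1, h.2⟩,
    fun ⟨γ, hγ, he⟩ => Subgroup.mem_map.2 ⟨γ, mem_congrLoc_of_cong hb hγ, he⟩⟩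

/-- A congruent matrix is the matrix of an element of the congruence group. -/
theorem Cong.exists_gl {M : Matrix (Fin 2) (Fin 2) (w.adicCompletion K)}
    (h : Cong (locVal w) b M) (hb : b < 1) :
    ∃ γ : GL (Fin 2) (w.adicCompletion K),
      (γ : Matrix (Fin 2) (Fin 2) (w.adicCompletion K)) = M :=
  ⟨Matrix.GeneralLinearGroup.mkOfDetNeZero M (h.det_ne_zero hb), rfl⟩

/-- Smaller congruence groups are normal. -/
theorem conj_mem_congrPGL {b₁ : WithZero (Multiplicative ℤ)}
    {g k : PGL(2, w.adicCompletion K)} (hg : g ∈ congrPGL w b₁) (hk : k ∈ congrPGL w b) :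
    g⁻¹ * k * g ∈ congrPGL w b := by
  obtain ⟨γ, hγ, rfl⟩ := Subgroup.mem_map.1 hg
  obtain ⟨κ, hκ, rfl⟩ := Subgroup.mem_map.1 hk
  have key : ∀ {κ : GL (Fin 2) (w.adicCompletion K)},
      Cong (locVal w) b (κ : Matrix (Fin 2) (Fin 2) (w.adicCompletion K)) →
      Cong (locVal w) b ((γ⁻¹ * κ * γ : GL (Fin 2) (w.adicCompletion K)) :
        Matrix (Fin 2) (Fin 2) (w.adicCompletion K)) := by
    intro κ hκ i j
    rw [show ((γ⁻¹ * κ * γ : GL (Fin 2) (w.adicCompletion K)) :
        Matrix (Fin 2) (Fin 2) (w.adicCompletion K)) - 1 =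
        ((γ⁻¹ : GL (Fin 2) (w.adicCompletion K)) : Matrix (Fin 2) (Fin 2) (w.adicCompletion K)) *
          ((κ : Matrix (Fin 2) (Fin 2) (w.adicCompletion K)) - 1) *
          (γ : Matrix (Fin 2) (Fin 2) (w.adicCompletion K)) by
      rw [mul_sub, sub_mul, mul_one, Units.val_mul, Units.val_mul, ← Units.val_mul γ⁻¹ γ,
        inv_mul_cancel, Units.val_one],
      Matrix.mul_apply]
    refine Valuation.map_sum_le _ fun k _ => val_mul_le' ?_ (hγ.1 k j).1
    rw [Matrix.mul_apply]
    exact Valuation.map_sum_le _ fun l _ => val_mul_le (hγ.1 i l).2 (hκ l k)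
  refine Subgroup.mem_map.2 ⟨γ⁻¹ * κ * γ, mem_congrLoc.2 ⟨?_, key (cong_of_mem hκ), ?_⟩,
    by rw [map_mul, map_mul, map_inv]⟩
  · exact ((hγ.1.inv).mul hκ.1).mul hγ.1
  · rw [show (γ⁻¹ * κ * γ)⁻¹ = γ⁻¹ * κ⁻¹ * γ by group]
    exact key (cong_of_mem (inv_mem hκ))

variable (w) in
/-- **A congruence group has finitely many cosets of a smaller one.** -/
theorem finite_cosets (hb : b ≠ 0) :
    (((↑) : PGL(2, w.adicCompletion K) → PGL(2, w.adicCompletion K) ⧸ congrPGL w b) ''
      (congrPGL w b' : Set PGL(2, w.adicCompletion K))).Finite := by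
  have hO : Finite (w.adicCompletionIntegers K ⧸ maximalIdeal (w.adicCompletionIntegers K)) :=
    CFT.Kummer.kl_finite_residueField w
  obtain ⟨n, hn⟩ : ∃ n : ℕ, exp (-(n : ℤ)) ≤ b := ⟨(log b).natAbs, by
    conv_rhs => rw [← exp_log hb]
    rw [exp_le_exp]; omega⟩
  set I := maximalIdeal (w.adicCompletionIntegers K) ^ n with hI
  have : Finite (w.adicCompletionIntegers K ⧸ I) :=
    Ideal.finite_quotient_pow (IsNoetherian.noetherian _) n
  classical
  let red : GL (Fin 2) (w.adicCompletion K) →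
      Fin 2 → Fin 2 → (w.adicCompletionIntegers K ⧸ I) × (w.adicCompletionIntegers K ⧸ I) :=
    fun γ i j =>
      if h : IsIntLocal γ then
        (Ideal.Quotient.mk I ⟨_, (h i j).1⟩, Ideal.Quotient.mk I ⟨_, (h i j).2⟩)
      else 0
  have hkey : ∀ γ γ' : GL (Fin 2) (w.adicCompletion K), IsIntLocal γ → IsIntLocal γ' →
      red γ = red γ' → (ProjGenLinGroup.mk γ : PGL(2, w.adicCompletion K) ⧸ congrPGL w b) =
        (ProjGenLinGroup.mk γ' : PGL(2, w.adicCompletion K) ⧸ congrPGL w b) := by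
    intro γ γ' h h' he
    rw [QuotientGroup.eq, ← map_inv, ← map_mul]
    refine Subgroup.mem_map_of_mem _ (mem_congrLoc.2 ⟨h.inv.mul h', ?_, ?_⟩)
    · intro i j
      rw [show ((γ⁻¹ * γ' : GL (Fin 2) (w.adicCompletion K)) :
          Matrix (Fin 2) (Fin 2) (w.adicCompletion K)) - 1 =
          ((γ⁻¹ : GL (Fin 2) (w.adicCompletion K)) : Matrix (Fin 2) (Fin 2) (w.adicCompletion K)) *
            ((γ' : Matrix (Fin 2) (Fin 2) (w.adicCompletion K)) - γ) by
        rw [mul_sub, Units.val_mul, ← Units.val_mul γ⁻¹ γ, inv_mul_cancel, Units.val_one],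
        Matrix.mul_apply]
      refine Valuation.map_sum_le _ fun k _ => val_mul_le (h i k).2 ?_
      have he' := congrArg Prod.fst (congrFun (congrFun he k) j)
      simp only [red, dif_pos h, dif_pos h'] at he'
      have hm := Ideal.Quotient.eq.1 he'.symm
      rw [hI, CFT.Kummer.kl_mem_pow_iff] at hm
      exact hm.trans hn
    · intro i j
      rw [show (((γ⁻¹ * γ')⁻¹ : GL (Fin 2) (w.adicCompletion K)) :
          Matrix (Fin 2) (Fin 2) (w.adicCompletion K)) - 1 =
          (((γ'⁻¹ : GL (Fin 2) (w.adicCompletion K)) :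
            Matrix (Fin 2) (Fin 2) (w.adicCompletion K)) -
            ((γ⁻¹ : GL (Fin 2) (w.adicCompletion K)) :
              Matrix (Fin 2) (Fin 2) (w.adicCompletion K))) *
            (γ : Matrix (Fin 2) (Fin 2) (w.adicCompletion K)) by
        rw [sub_mul, _root_.mul_inv_rev, inv_inv, Units.val_mul, ← Units.val_mul γ⁻¹ γ,
          inv_mul_cancel, Units.val_one],
        Matrix.mul_apply]
      refine Valuation.map_sum_le _ fun k _ => val_mul_le' ?_ (h k j).1
      have he' := congrArg Prod.snd (congrFun (congrFun he i) k)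
      simp only [red, dif_pos h, dif_pos h'] at he'
      have hm := Ideal.Quotient.eq.1 he'.symm
      rw [hI, CFT.Kummer.kl_mem_pow_iff] at hm
      exact hm.trans hn
  let back : (Fin 2 → Fin 2 → (w.adicCompletionIntegers K ⧸ I) × (w.adicCompletionIntegers K ⧸ I)) →
      PGL(2, w.adicCompletion K) ⧸ congrPGL w b := fun r =>
    if h : ∃ γ, IsIntLocal γ ∧ red γ = r then
      (ProjGenLinGroup.mk h.choose : PGL(2, w.adicCompletion K) ⧸ congrPGL w b)
    else ((1 : PGL(2, w.adicCompletion K)) : PGL(2, w.adicCompletion K) ⧸ congrPGL w b)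
  refine (Set.finite_range back).subset ?_
  rintro _ ⟨_, ⟨γ, hγ, rfl⟩, rfl⟩
  have h : ∃ γ₀, IsIntLocal γ₀ ∧ red γ₀ = red γ := ⟨γ, hγ.1, rfl⟩
  exact ⟨red γ, (dif_pos h).trans (hkey _ _ h.choose_spec.1 hγ.1 h.choose_spec.2)⟩

end Fermat.Agent.Extra.LTGen.Deep

end
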