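import Fermat.Agent.Extra.LTGen.Deep.Abstract
import Fermat.Agent.Extra.LTGen.Deep.Completion
import Fermat.Agent.LT.Tame.BaseChange
import Fermat.Agent.LT.Tame.TwistUnique
import Fermat.Agent.LT.Tame.PlaceMatch
import Fermat.Agent.LT.Descent.TensorMatch
import Fermat.Agent.LT.Geom.HasseLocal

/-!
# Deep matching at a place with one place above

Levels are the principal congruence groups of one natural modulus `N` on both sides.  An invariant
matrix upstairs supported in the group of modulus `N₀` and invariant under the one of modulus `N₁`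
has a transfer downstairs, with which it matches at every regular class; the transfer vanishes at
the classes that are no local norms.
-/

set_option autoImplicit false
set_option linter.unusedSectionVars false
set_option linter.style.haveILetI false

noncomputable section

namespace Fermat.Agent.Extra.LTGen.Deep

open IsDedekindDomain IsDedekindDomain.HeightOneSpectrum NumberField Matrix
open Fermat.Agent.LT.Tame Fermat.Agent.LT.Descent
open scoped MatrixGroups

/-- A place `w` above `v` fixed by the generator of a cubic extension. -/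
structure DeepPlace {K K' : Type*} [Field K] [NumberField K] [Field K'] [NumberField K']
    [Algebra K K'] (σ : K' ≃ₐ[K] K') (v : HeightOneSpectrum (𝓞 K))
    (w : HeightOneSpectrum (𝓞 K')) : Prop where
  ne_one : σ ≠ 1
  order_three : ∀ x, σ (σ (σ x)) = x
  fixed : ∀ x, σ x = x → x ∈ Set.range (algebraMap K K')
  above : ∀ r : 𝓞 K, RingOfIntegers.mapRingHom (algebraMap K K') r ∈ w.asIdeal ↔ r ∈ v.asIdeal
  fixed_place : placePerm σ.toRingEquiv w = w

/-- The depth condition on a support modulus. -/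
def DeepAt {K' : Type*} [Field K'] [NumberField K'] (w : HeightOneSpectrum (𝓞 K')) (N₀ : ℕ) :
    Prop :=
  natVal w N₀ < natVal w (2 * 3 ^ 10)

/-- The moduli of support, of invariance and of the level. -/
structure Depth {K' : Type*} [Field K'] [NumberField K'] (w : HeightOneSpectrum (𝓞 K'))
    (N₀ N₁ N : ℕ) : Prop where
  deep : DeepAt w N₀
  dvd₁ : N₀ ∣ N₁
  dvd : 27 * N₁ ∣ N
  ne : N ≠ 0

section Field

variable {K' : Type*} [Field K'] [NumberField K'] {w : HeightOneSpectrum (𝓞 K')}

theorem locVal_three : locVal w (3 : w.adicCompletion K') = natVal w 3 := by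
  rw [← Nat.cast_ofNat (R := w.adicCompletion K') (n := 3), locVal_natCast]

theorem natVal_three_ne : natVal w 3 ≠ 0 := natVal_ne_zero w three_ne_zero

/-- The radius of the working group. -/
abbrev bW (w : HeightOneSpectrum (𝓞 K')) (N₀ : ℕ) : WithZero (Multiplicative ℤ) :=
  natVal w N₀ / natVal w 3 ^ 4

variable {N₀ N₁ N : ℕ} (D : Depth w N₀ N₁ N)

theorem val_two_mul_le {k : ℕ} (hk : k ≤ 10) :
    natVal w (2 * 3 ^ 10) ≤ natVal w 2 * natVal w 3 ^ k := by
  rw [natVal_mul]
  refine mul_le_mul' le_rfl ?_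
  rw [natVal, Nat.cast_pow, map_pow]
  exact pow_le_pow_right_of_le_one' (natVal_le_one w 3) hk

include D

theorem Depth.lt_two {k : ℕ} (hk : k ≤ 6) :
    bW w N₀ < locVal w (2 : w.adicCompletion K') * locVal w (3 : w.adicCompletion K') ^ k := by
  rw [← Nat.cast_ofNat (R := w.adicCompletion K') (n := 2), locVal_natCast, locVal_three,
    div_lt_iff₀ (pow_pos (zero_lt_iff.2 natVal_three_ne) 4), mul_assoc, ← pow_add]
  exact D.deep.trans_le (val_two_mul_le (by omega))

theorem Depth.lt_pow {k : ℕ} (hk : k ≤ 6) :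
    bW w N₀ < locVal w (3 : w.adicCompletion K') ^ k :=
  (D.lt_two hk).trans_le (mul_le_of_le_one_left' (val_ofNat_le 2))

theorem Depth.lt_one : bW w N₀ < 1 := by simpa using D.lt_pow (k := 0) (Nat.zero_le 6)

theorem Depth.le_bW : natVal w N₀ ≤ bW w N₀ := by
  rw [bW, le_div_iff₀ (pow_pos (zero_lt_iff.2 natVal_three_ne) 4)]
  exact mul_le_of_le_one_right' (pow_le_one' (natVal_le_one w 3) 4)

theorem Depth.N₀_lt_pow {k : ℕ} (hk : k ≤ 6) :
    natVal w N₀ < locVal w (3 : w.adicCompletion K') ^ k :=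
  D.le_bW.trans_lt (D.lt_pow hk)

theorem Depth.N_le : natVal w N ≤ natVal w 3 ^ 3 * natVal w N₁ := by
  refine (natVal_le_of_dvd w D.dvd).trans_eq ?_
  rw [natVal_mul, show (27 : ℕ) = 3 ^ 3 by norm_num, natVal, Nat.cast_pow, map_pow]

theorem Depth.N_le_N₁ : natVal w N ≤ natVal w N₁ :=
  natVal_le_of_dvd w ((dvd_mul_left N₁ 27).trans D.dvd)

theorem Depth.N₁_le_bW : natVal w N₁ ≤ bW w N₀ := (natVal_le_of_dvd w D.dvd₁).trans D.le_bW

/-- Cubing is injective up to conjugation in `PGL₂` on the working group. -/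
theorem Depth.eq_conj_of_pow {u u' x : PGL(2, w.adicCompletion K')}
    (hu : u ∈ congrPGL w (bW w N₀)) (hu' : u' ∈ congrPGL w (bW w N₀))
    (he : x⁻¹ * u ^ 3 * x = u' ^ 3) : x⁻¹ * u * x = u' := by
  obtain ⟨U, hU, rfl⟩ := (mem_congrPGL D.lt_one).1 hu
  obtain ⟨U', hU', rfl⟩ := (mem_congrPGL D.lt_one).1 hu'
  induction x using ProjGenLinGroup.induction_on with | mk X =>
  rw [← map_inv, ← map_pow, ← map_pow, ← map_mul, ← map_mul, mk_eq_mk_iff_smul] at he
  obtain ⟨c, hc⟩ := he
  simp only [Units.val_mul, Units.val_pow_eq_pow_val] at hc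
  obtain ⟨s, hs, hsV⟩ := exists_smul_of_conj_cube hU hU' (D.lt_two (k := 2) (by omega))
    (X := (X : Matrix (Fin 2) (Fin 2) (w.adicCompletion K')))
    (Y := ((X⁻¹ : GL (Fin 2) (w.adicCompletion K')) :
      Matrix (Fin 2) (Fin 2) (w.adicCompletion K')))
    (by rw [← Units.val_mul, mul_inv_cancel, Units.val_one])
    (c := ((c⁻¹ : (w.adicCompletion K')ˣ) : w.adicCompletion K'))
    (by rw [hc, smul_smul, Units.inv_mul, one_smul])
  rw [← map_inv, ← map_mul, ← map_mul]
  refine (mk_eq_mk_iff_smul.2 ⟨Units.mk0 s hs, ?_⟩).symm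
  rw [Units.val_mul, Units.val_mul, Units.val_mk0]
  exact hsV

/-- Cube roots of twisted norms. -/
theorem Depth.exists_root_of_mem {g : PGL(2, w.adicCompletion K')}
    (hg : g ∈ congrPGL w (natVal w N₀)) :
    ∃ U : GL (Fin 2) (w.adicCompletion K'),
      Cong (locVal w) (natVal w N₀ / locVal w (3 : w.adicCompletion K') ^ 2)
          (U : Matrix (Fin 2) (Fin 2) (w.adicCompletion K')) ∧
        ProjGenLinGroup.mk U ^ 3 = g := by
  obtain ⟨G, hG, rfl⟩ := Subgroup.mem_map.1 hg
  obtain ⟨U, hU, hU3⟩ := exists_root (hasSeriesRoot w) (cong_of_mem hG) (D.N₀_lt_pow (by omega))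
  obtain ⟨γ, hγ⟩ := hU.exists_gl (by
    rw [div_lt_one₀ (pow_pos (zero_lt_iff.2 (locVal_three (w := w) ▸ natVal_three_ne)) 2)]
    exact D.N₀_lt_pow (by omega))
  refine ⟨γ, hγ ▸ hU, ?_⟩
  rw [← map_pow]
  exact congrArg _ (Units.ext (by rw [Units.val_pow_eq_pow_val, hγ, hU3]))

end Field

variable {K K' : Type*} [Field K] [NumberField K] [Field K'] [NumberField K'] [Algebra K K']
  {σ : K' ≃ₐ[K] K'} {v : HeightOneSpectrum (𝓞 K)} {w : HeightOneSpectrum (𝓞 K')}

namespace DeepPlace

variable (P : DeepPlace σ v w)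
include P

theorem hval (x : K') : w.valuation K' (σ.toRingEquiv x) = w.valuation K' x := by
  rw [valuation_apply_placePerm, P.fixed_place]

/-- `K_v → K'_w`. -/
def emb : v.adicCompletion K →+* w.adicCompletion K' :=
  completionEmb (RingOfIntegers.mapRingHom (algebraMap K K')) (algebraMap K K') map_integers_compat
    P.above

/-- The automorphism of `K'_w`. -/
def aut : w.adicCompletion K' ≃+* w.adicCompletion K' := completionEquiv σ.toRingEquiv P.hval

theorem continuous_aut : Continuous P.aut := continuous_completionEquiv _ _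

theorem emb_coe (x : K) : P.emb (x : v.adicCompletion K) = (algebraMap K K' x : _) :=
  completionEmb_coe _ _ _ _ x

theorem aut_coe (x : K') : P.aut (x : w.adicCompletion K') = (σ x : _) :=
  completionEquiv_coe _ _ x

theorem aut_emb (x : v.adicCompletion K) : P.aut (P.emb x) = P.emb x :=
  congrFun (DenseRange.equalizer (denseRange_algebraMap K v)
    (P.continuous_aut.comp (continuous_completionEmb _ _ _ _))
    (continuous_completionEmb _ _ _ _)
    (funext fun a => by
      show P.aut (P.emb a) = P.emb a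
      rw [emb_coe, aut_coe, σ.commutes])) x

theorem aut_cube (x : w.adicCompletion K') : P.aut (P.aut (P.aut x)) = x :=
  congrFun (DenseRange.equalizer (denseRange_algebraMap K' w)
    (P.continuous_aut.comp (P.continuous_aut.comp P.continuous_aut)) continuous_id
    (funext fun a => by
      rw [Function.comp_apply, Function.comp_apply, Function.comp_apply, algebraMap_adicCompletion,
        Function.comp_apply, Algebra.algebraMap_self, RingHom.id_apply, aut_coe, aut_coe, aut_coe,
        P.order_three]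
      rfl)) x

theorem locVal_aut (x : w.adicCompletion K') : locVal w (P.aut x) = locVal w x := by
  rcases eq_or_ne x 0 with rfl | hx
  · rw [map_zero]
  have h1 : {y : w.adicCompletion K' | Valued.v y = Valued.v x} ∈ nhds x :=
    Valued.locally_const ((map_ne_zero _).2 hx)
  have h2 : P.aut ⁻¹' {y : w.adicCompletion K' | Valued.v y = Valued.v (P.aut x)} ∈ nhds x :=
    P.continuous_aut.continuousAt.preimage_mem_nhds
      (Valued.locally_const ((map_ne_zero _).2 ((map_ne_zero P.aut).2 hx)))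
  obtain ⟨y, ⟨a, rfl⟩, hy1, hy2⟩ :=
    (denseRange_algebraMap K' w).inter_nhds_nonempty (Filter.inter_mem h1 h2)
  simp only [Set.mem_preimage, Set.mem_ofPred_eq, algebraMap_adicCompletion, Function.comp_apply,
    Algebra.algebraMap_self, RingHom.id_apply, P.aut_coe, valuedAdicCompletion_eq_valuation']
    at hy1 hy2
  rw [locVal, ← hy1, ← hy2]
  exact P.hval a

/-- The fixed field of the completion is the completion of the base. -/
theorem mem_range_emb {x : w.adicCompletion K'} (hx : P.aut x = x) : x ∈ Set.range P.emb := by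
  have h3 : (3 : w.adicCompletion K') ≠ 0 := by
    intro h
    exact natVal_three_ne (w := w) (by rw [← locVal_three, h, map_zero])
  have key : ∀ y, (3 : w.adicCompletion K')⁻¹ * (y + P.aut y + P.aut (P.aut y)) ∈
      Set.range P.emb := by
    intro y
    have hc : Continuous P.aut := P.continuous_aut
    refine (denseRange_algebraMap K' w).induction_on y
      ((isClosed_range_completionEmb _ _ _ _).preimage
        (continuous_const.mul ((continuous_id.add hc).add (hc.comp hc)))) fun a => ?_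
    obtain ⟨b, hb⟩ := P.fixed (a + σ a + σ (σ a)) (by simp only [map_add, P.order_three]; ring)
    refine ⟨((b / 3 : K) : v.adicCompletion K), ?_⟩
    rw [algebraMap_adicCompletion, Function.comp_apply, Algebra.algebraMap_self, RingHom.id_apply,
      aut_coe, aut_coe, emb_coe, map_div₀, map_ofNat, hb, ← adicCompletion.coe_add,
      ← adicCompletion.coe_add]
    have hE : ∀ z : K', (z : w.adicCompletion K') = FinitePlace.embedding w z :=
      fun z => (FinitePlace.embedding_apply w z).symm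
    rw [hE, hE, map_div₀, map_ofNat]
    ring
  have := key x
  rw [hx, hx] at this
  convert this using 1
  rw [show x + x + x = 3 * x by ring, inv_mul_cancel_left₀ h3]

/-- `PGL₂(K_v) → PGL₂(K'_w)`. -/
def pglEmb : PGL(2, v.adicCompletion K) →* PGL(2, w.adicCompletion K') :=
  Fermat.Agent.LT.Geom.pglMap P.emb

/-- The automorphism of `K'_w` over `K_v`. -/
def algAut : letI := P.emb.toAlgebra
    w.adicCompletion K' ≃ₐ[v.adicCompletion K] w.adicCompletion K' :=
  letI := P.emb.toAlgebra
  AlgEquiv.ofRingEquiv (f := P.aut) P.aut_emb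

theorem pglEquiv_fixed_iff (x : PGL(2, w.adicCompletion K')) :
    Fermat.Agent.LT.Geom.pglEquiv P.aut x = x ↔ x ∈ P.pglEmb.range := by
  letI := P.emb.toAlgebra
  refine ⟨fun h => ?_, ?_⟩
  · obtain ⟨γ, hγ⟩ := Fermat.Agent.LT.Geom.exists_pglMap_eq_of_fixed P.algAut
      (fun y hy => P.mem_range_emb hy) h
    exact ⟨γ, hγ⟩
  · rintro ⟨γ, rfl⟩
    exact Fermat.Agent.LT.Geom.pglSigma_pglMap P.algAut γ

theorem algAut_ne_one : letI := P.emb.toAlgebra; P.algAut ≠ 1 := by
  letI := P.emb.toAlgebra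
  intro h
  refine P.ne_one (AlgEquiv.ext fun x => ?_)
  have h2 : P.aut (x : w.adicCompletion K') = x := DFunLike.congr_fun h (x : w.adicCompletion K')
  rw [aut_coe, ← FinitePlace.embedding_apply, ← FinitePlace.embedding_apply] at h2
  exact (FinitePlace.embedding w).injective h2

theorem cong_map_aut {b : WithZero (Multiplicative ℤ)}
    {M : Matrix (Fin 2) (Fin 2) (w.adicCompletion K')} (h : Cong (locVal w) b M) :
    Cong (locVal w) b (P.aut.toRingHom.mapMatrix M) := fun i j => by
  rw [show P.aut.toRingHom.mapMatrix M - 1 = P.aut.toRingHom.mapMatrix (M - 1) by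
    rw [map_sub, map_one]]
  exact (P.locVal_aut _).le.trans (h i j)

theorem aut_mem {b : WithZero (Multiplicative ℤ)} {γ : GL (Fin 2) (w.adicCompletion K')}
    (h : γ ∈ congrLoc w b) :
    GeneralLinearGroup.map P.aut.toRingHom γ ∈ congrLoc w b := by
  refine mem_congrLoc.2 ⟨fun i j => ⟨?_, ?_⟩, P.cong_map_aut (cong_of_mem h), ?_⟩
  · exact (P.locVal_aut _).le.trans (h.1 i j).1
  · rw [← map_inv]
    exact (P.locVal_aut _).le.trans (h.1 i j).2
  · rw [← map_inv]
    exact P.cong_map_aut (cong_of_mem (inv_mem h))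

theorem pglEquiv_mem {b : WithZero (Multiplicative ℤ)} {g : PGL(2, w.adicCompletion K')}
    (h : g ∈ congrPGL w b) : Fermat.Agent.LT.Geom.pglEquiv P.aut g ∈ congrPGL w b := by
  obtain ⟨γ, hγ, rfl⟩ := Subgroup.mem_map.1 h
  exact Subgroup.mem_map.2 ⟨_, P.aut_mem hγ,
    (Fermat.Agent.LT.Geom.pglMap_mk P.aut.toRingHom γ).symm⟩

theorem pglEquiv_cube (x : PGL(2, w.adicCompletion K')) :
    Fermat.Agent.LT.Geom.pglEquiv P.aut (Fermat.Agent.LT.Geom.pglEquiv P.aut
      (Fermat.Agent.LT.Geom.pglEquiv P.aut x)) = x := by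
  letI := P.emb.toAlgebra
  exact Fermat.Agent.LT.Geom.pglSigma_cube P.algAut P.aut_cube x

theorem locVal_emb_le_iff {n : ℕ} (hn : n ≠ 0) (x : v.adicCompletion K) :
    locVal w (P.emb x) ≤ natVal w n ↔ locVal v x ≤ natVal v n := by
  have hv := natVal_ne_zero v hn
  have hw := natVal_ne_zero w hn
  have key := completionEmb_mem_integers_iff (RingOfIntegers.mapRingHom (algebraMap K K'))
    (algebraMap K K') map_integers_compat P.above (x / (n : v.adicCompletion K))
  rw [mem_adicCompletionIntegers, mem_adicCompletionIntegers, map_div₀, map_natCast, map_div₀,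
    map_div₀, locVal_natCast, locVal_natCast, div_le_one₀ (zero_lt_iff.2 hw),
    div_le_one₀ (zero_lt_iff.2 hv)] at key
  exact key

theorem natVal_lt_one {n : ℕ} (hn : n ≠ 0) (h : natVal w n < 1) : natVal v n < 1 := by
  refine lt_of_le_of_ne (natVal_le_one v n) fun h1 => not_le.2 h ?_
  have := (P.locVal_emb_le_iff hn 1).2 (by rw [map_one]; exact h1.ge)
  rwa [map_one, map_one] at this

/-- The levels below are the traces of the levels above. -/
theorem mem_congrPGL_iff {N : ℕ} (hN : N ≠ 0) (hlt : natVal w N < 1)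
    (g : PGL(2, v.adicCompletion K)) :
    g ∈ congrPGL v (natVal v N) ↔ P.pglEmb g ∈ congrPGL w (natVal w N) := by
  have hlt' := P.natVal_lt_one hN hlt
  have hcong : ∀ M : Matrix (Fin 2) (Fin 2) (v.adicCompletion K),
      Cong (locVal w) (natVal w N) (P.emb.mapMatrix M) ↔ Cong (locVal v) (natVal v N) M := by
    intro M
    refine forall₂_congr fun i j => ?_
    rw [show (P.emb.mapMatrix M - 1) i j = P.emb ((M - 1) i j) by
      rw [show P.emb.mapMatrix M - 1 = P.emb.mapMatrix (M - 1) by rw [map_sub, map_one]]; rfl]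
    exact P.locVal_emb_le_iff hN _
  constructor
  · intro h
    obtain ⟨γ, hγ, rfl⟩ := (mem_congrPGL hlt').1 h
    exact (mem_congrPGL hlt).2 ⟨GeneralLinearGroup.map P.emb γ, (hcong _).2 hγ, rfl⟩
  · intro h
    induction g using ProjGenLinGroup.induction_on with | mk g₀ =>
    obtain ⟨γ, hγ, he⟩ := (mem_congrPGL hlt).1 h
    rw [pglEmb, Fermat.Agent.LT.Geom.pglMap_mk, mk_eq_mk_iff_smul] at he
    obtain ⟨c, hc⟩ := he
    change P.emb.mapMatrix (g₀ : Matrix (Fin 2) (Fin 2) (v.adicCompletion K)) = _ at hc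
    have h00 := congr_fun (congr_fun hc 0) 0
    simp only [RingHom.mapMatrix_apply, Matrix.map_apply, Matrix.smul_apply, smul_eq_mul] at h00
    have hd : locVal w ((γ : Matrix (Fin 2) (Fin 2) (w.adicCompletion K')) 0 0 - 1) ≤
        natVal w N := by simpa using hγ 0 0
    have hd1 := val_one_of_sub_le hd hlt
    have hγ0 : (γ : Matrix (Fin 2) (Fin 2) (w.adicCompletion K')) 0 0 ≠ 0 :=
      (map_ne_zero (locVal w)).1 (hd1 ▸ one_ne_zero)
    have hg0 : (g₀ : Matrix (Fin 2) (Fin 2) (v.adicCompletion K)) 0 0 ≠ 0 := fun h0 => by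
      rw [h0, map_zero] at h00
      exact mul_ne_zero c.ne_zero hγ0 h00.symm
    set a := ((g₀ : Matrix (Fin 2) (Fin 2) (v.adicCompletion K)) 0 0)⁻¹ with ha
    have hM : P.emb.mapMatrix (a • (g₀ : Matrix (Fin 2) (Fin 2) (v.adicCompletion K))) =
        ((γ : Matrix (Fin 2) (Fin 2) (w.adicCompletion K')) 0 0)⁻¹ •
          (γ : Matrix (Fin 2) (Fin 2) (w.adicCompletion K')) := by
      ext i j
      have hij := congr_fun (congr_fun hc i) j
      simp only [RingHom.mapMatrix_apply, Matrix.map_apply, Matrix.smul_apply, smul_eq_mul] at hij ⊢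
      rw [ha, map_mul, map_inv₀, hij, h00]
      field_simp
    have hcg : Cong (locVal v) (natVal v N)
        (a • (g₀ : Matrix (Fin 2) (Fin 2) (v.adicCompletion K))) := by
      refine (hcong _).1 (hM ▸ hγ.smul hlt.le ?_)
      rw [show ∀ y : w.adicCompletion K', y ≠ 0 → y⁻¹ - 1 = -(y - 1) / y from
        fun y hy => by field_simp; ring, map_div₀, Valuation.map_neg, hd1, div_one]
      · exact hd
      · exact hγ0
    obtain ⟨γ', hγ'⟩ := hcg.exists_gl hlt'
    refine (mem_congrPGL hlt').2 ⟨γ', hγ' ▸ hcg, mk_eq_mk_iff_smul.2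
      ⟨(Units.mk0 a (inv_ne_zero hg0))⁻¹, ?_⟩⟩
    rw [hγ', smul_smul, Units.val_inv_eq_inv_val, Units.val_mk0,
      inv_mul_cancel₀ (inv_ne_zero hg0), one_smul]

variable {N₀ N₁ N : ℕ}

/-- **The deep levels satisfy the axioms of the matching.** -/
theorem isDeepLevel (D : Depth w N₀ N₁ N) :
    IsDeepLevel (Fermat.Agent.LT.Geom.pglEquiv P.aut) P.pglEmb (congrPGL w (bW w N₀))
      (congrPGL w (natVal w N₀)) (congrPGL w (natVal w N₁)) (congrPGL w (natVal w N))
      (congrPGL v (natVal v N)) where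
  stable _ hx := P.pglEquiv_mem hx
  order_three := P.pglEquiv_cube
  fixed := P.pglEquiv_fixed_iff
  inj := Fermat.Agent.LT.Geom.pglMap_injective P.emb
  U_le := Subgroup.map_mono (congrLoc_mono D.le_bW)
  L_le := Subgroup.map_mono (congrLoc_mono D.N₁_le_bW)
  K_le := Subgroup.map_mono (congrLoc_mono D.N_le_N₁)
  L_normal _ hg _ hk := conj_mem_congrPGL hg hk
  K_normal _ hg _ hk := conj_mem_congrPGL hg hk
  finite := finite_cosets w (natVal_ne_zero w D.ne)
  mem_H := P.mem_congrPGL_iff D.ne (D.N_le_N₁.trans_lt (D.N₁_le_bW.trans_lt D.lt_one))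
  eq_conj_of_pow _ hu _ hu' _ he := D.eq_conj_of_pow hu hu' he
  root_norm δ hδ := by
    obtain ⟨U, hU, hU3⟩ := D.exists_root_of_mem
      (g := twNorm (Fermat.Agent.LT.Geom.pglEquiv P.aut) δ)
      (mul_mem (mul_mem hδ (P.pglEquiv_mem hδ)) (P.pglEquiv_mem (P.pglEquiv_mem hδ)))
    refine ⟨_, (mem_congrPGL D.lt_one).2 ⟨U, hU.mono ?_, rfl⟩, hU3⟩
    rw [locVal_three, bW]
    exact div_le_div_of_nonneg_left zero_le (pow_pos (zero_lt_iff.2 natVal_three_ne) 4)
      (pow_le_pow_right_of_le_one' (natVal_le_one w 3) (by omega))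
  exists_h1 δ hδ u hu hu3 hσu := by
    obtain ⟨U, hU, hU3⟩ := D.exists_root_of_mem
      (g := twNorm (Fermat.Agent.LT.Geom.pglEquiv P.aut) δ)
      (mul_mem (mul_mem hδ (P.pglEquiv_mem hδ)) (P.pglEquiv_mem (P.pglEquiv_mem hδ)))
    have he0 : locVal w (3 : w.adicCompletion K') ≠ 0 := locVal_three (w := w) ▸ natVal_three_ne
    set b := natVal w N₀ / locVal w (3 : w.adicCompletion K') ^ 2 with hb
    have hbW : b ≤ bW w N₀ := by
      rw [hb, locVal_three, bW]
      exact div_le_div_of_nonneg_left zero_le (pow_pos (zero_lt_iff.2 natVal_three_ne) 4)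
        (pow_le_pow_right_of_le_one' (natVal_le_one w 3) (by omega))
    have hu' : ProjGenLinGroup.mk U = u := by
      have := D.eq_conj_of_pow (x := 1)
        ((mem_congrPGL D.lt_one).2 ⟨U, hU.mono hbW, rfl⟩) hu (by simp [hU3, hu3])
      simpa using this
    obtain ⟨Δ, hΔ, rfl⟩ := Subgroup.mem_map.1 hδ
    have hb1 : b < 1 := hbW.trans_lt D.lt_one
    have hE : Cong (locVal w) b
        ((U⁻¹ * Δ : GL (Fin 2) (w.adicCompletion K')) :
          Matrix (Fin 2) (Fin 2) (w.adicCompletion K')) := by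
      refine cong_of_mem (mul_mem (inv_mem (mem_congrLoc_of_cong hb1 hU)) (congrLoc_mono ?_ hΔ))
      rw [hb, le_div_iff₀ (pow_pos (zero_lt_iff.2 he0) 2)]
      exact mul_le_of_le_one_right' (pow_le_one' (val_ofNat_le 3) 2)
    set e := u⁻¹ * ProjGenLinGroup.mk Δ with he
    have hek : ProjGenLinGroup.mk (U⁻¹ * Δ) = e := by rw [map_mul, map_inv, hu']
    set s := Fermat.Agent.LT.Geom.pglEquiv P.aut
    have hnorm : e * s e * s (s e) = 1 := by
      simp only [e, map_mul, map_inv, hσu]
      have key : ∀ (a d d₁ d₂ : PGL(2, w.adicCompletion K')),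
          a⁻¹ * d * ((d⁻¹ * a * d)⁻¹ * d₁) * ((d₁⁻¹ * (d⁻¹ * a * d) * d₁)⁻¹ * d₂) =
            (a ^ 3)⁻¹ * (d * d₁ * d₂) := by
        intros; group
      rw [key, hu3, twNorm, inv_mul_cancel]
    rw [← hek] at hnorm
    simp only [s, Fermat.Agent.LT.Geom.pglEquiv_apply, Fermat.Agent.LT.Geom.pglMap_mk,
      ← map_mul] at hnorm
    rw [← map_one (ProjGenLinGroup.mk (n := Fin 2) (R := w.adicCompletion K')),
      mk_eq_mk_iff_smul] at hnorm
    obtain ⟨c, hc⟩ := hnorm
    simp only [Units.val_mul, Units.val_one] at hc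
    set E : Matrix (Fin 2) (Fin 2) (w.adicCompletion K') :=
      ((U⁻¹ * Δ : GL (Fin 2) (w.adicCompletion K')) :
        Matrix (Fin 2) (Fin 2) (w.adicCompletion K')) with hEdef
    have hNE : E * P.aut.toRingHom.mapMatrix E *
        P.aut.toRingHom.mapMatrix (P.aut.toRingHom.mapMatrix E) =
        ((c⁻¹ : (w.adicCompletion K')ˣ) : w.adicCompletion K') •
          (1 : Matrix (Fin 2) (Fin 2) (w.adicCompletion K')) := by
      rw [hc, smul_smul, Units.inv_mul, one_smul]
      rw [hEdef, Units.val_mul]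
      rfl
    have hb3 : b < locVal w (3 : w.adicCompletion K') ^ 3 := by
      rw [hb, div_lt_iff₀ (pow_pos (zero_lt_iff.2 he0) 2), ← pow_add]
      exact D.N₀_lt_pow (by omega)
    obtain ⟨X, r, hX, hr, hEX⟩ :=
      exists_h1 (hasSeriesRoot w) P.aut P.locVal_aut P.aut_cube hE hb3 hNE
    have hbX : b / locVal w (3 : w.adicCompletion K') ^ 2 = bW w N₀ := by
      rw [hb, div_div, ← pow_add, locVal_three]
    rw [hbX] at hX
    obtain ⟨Xg, hXg⟩ := hX.exists_gl D.lt_one
    refine ⟨ProjGenLinGroup.mk Xg, (mem_congrPGL D.lt_one).2 ⟨Xg, hXg ▸ hX, rfl⟩, ?_⟩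
    rw [← hek, eq_mul_inv_iff_mul_eq]
    refine (mk_eq_mk_iff_smul.2 ⟨Units.mk0 r hr, ?_⟩).symm
    rw [Units.val_mul, Units.val_mk0]
    show E * P.aut.toRingHom.mapMatrix (Xg : Matrix (Fin 2) (Fin 2) (w.adicCompletion K')) = _
    rw [hXg]
    exact hEX
  root_step u hu k hk := by
    obtain ⟨U, hU, rfl⟩ := (mem_congrPGL D.lt_one).1 hu
    obtain ⟨Kk, hKk, rfl⟩ := Subgroup.mem_map.1 hk
    have hNW : natVal w N ≤ bW w N₀ := D.N_le_N₁.trans D.N₁_le_bW
    have hU3 := hU.pow D.lt_one.le 3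
    have hM : Cong (locVal w) (bW w N₀)
        ((U : Matrix (Fin 2) (Fin 2) (w.adicCompletion K')) ^ 3 *
          (Kk : Matrix (Fin 2) (Fin 2) (w.adicCompletion K'))) :=
      hU3.mul ((cong_of_mem hKk).mono hNW) D.lt_one.le
    obtain ⟨V, hV, hV3⟩ := exists_root (hasSeriesRoot w) hM (D.lt_pow (by omega))
    have he0 : locVal w (3 : w.adicCompletion K') ≠ 0 := locVal_three (w := w) ▸ natVal_three_ne
    set β := bW w N₀ / locVal w (3 : w.adicCompletion K') ^ 2 with hβ
    have hWβ : bW w N₀ ≤ β := by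
      rw [hβ, le_div_iff₀ (pow_pos (zero_lt_iff.2 he0) 2)]
      exact mul_le_of_le_one_right' (pow_le_one' (val_ofNat_le 3) 2)
    have hβ2 : β < locVal w (3 : w.adicCompletion K') ^ 2 := by
      rw [hβ, div_lt_iff₀ (pow_pos (zero_lt_iff.2 he0) 2), ← pow_add]
      exact D.lt_pow (by omega)
    have hclose := val_sub_root (hU.mono hWβ) hV hβ2 (g := natVal w N) fun i j => by
      rw [hV3, show ∀ A B : Matrix (Fin 2) (Fin 2) (w.adicCompletion K'),
        A * B - A = A * (B - 1) from fun A B => by rw [mul_sub, mul_one], Matrix.mul_apply]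
      exact Valuation.map_sum_le _ fun k _ =>
        val_mul_le (hU3.le_one D.lt_one.le i k) (cong_of_mem hKk k j)
    have hd1 : natVal w N / locVal w (3 : w.adicCompletion K') ^ 3 ≤ natVal w N₁ := by
      rw [div_le_iff₀ (pow_pos (zero_lt_iff.2 he0) 3), locVal_three, mul_comm]
      exact D.N_le
    have hVW : Cong (locVal w) (bW w N₀) V := fun i j => by
      rw [show V - 1 = (V - (U : Matrix (Fin 2) (Fin 2) (w.adicCompletion K'))) +
        ((U : Matrix (Fin 2) (Fin 2) (w.adicCompletion K')) - 1) by abel, Matrix.add_apply]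
      exact Valuation.map_add_le _ (((hclose i j).trans hd1).trans D.N₁_le_bW) (hU i j)
    obtain ⟨Vg, hVg⟩ := hVW.exists_gl D.lt_one
    refine ⟨ProjGenLinGroup.mk Vg, (mem_congrPGL D.lt_one).2 ⟨Vg, hVg ▸ hVW, rfl⟩, ?_, ?_⟩
    · rw [← map_pow, ← map_pow, ← map_mul]
      refine congrArg _ (Units.ext ?_)
      rw [Units.val_pow_eq_pow_val, hVg, hV3, Units.val_mul, Units.val_pow_eq_pow_val]
    · rw [← map_inv, ← map_mul]
      refine Subgroup.mem_map_of_mem _ (mem_congrLoc_of_cong
        (D.N₁_le_bW.trans_lt D.lt_one) fun i j => ?_)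
      have hUi : Cong (locVal w) (bW w N₀)
          ((U⁻¹ : GL (Fin 2) (w.adicCompletion K')) :
            Matrix (Fin 2) (Fin 2) (w.adicCompletion K')) :=
        hU.inv D.lt_one (by rw [← Units.val_mul, mul_inv_cancel, Units.val_one])
      rw [show ((U⁻¹ * Vg : GL (Fin 2) (w.adicCompletion K')) :
          Matrix (Fin 2) (Fin 2) (w.adicCompletion K')) - 1 =
          ((U⁻¹ : GL (Fin 2) (w.adicCompletion K')) :
            Matrix (Fin 2) (Fin 2) (w.adicCompletion K')) *
            (V - (U : Matrix (Fin 2) (Fin 2) (w.adicCompletion K'))) by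
        rw [mul_sub, Units.val_mul, hVg, ← Units.val_mul U⁻¹ U, inv_mul_cancel, Units.val_one],
        Matrix.mul_apply]
      exact Valuation.map_sum_le _ fun k _ =>
        val_mul_le (hUi.le_one D.lt_one.le i k) ((hclose k j).trans hd1)

/-- The hypotheses on an invariant matrix upstairs: support and invariance. -/
structure IsDeepKer (w : HeightOneSpectrum (𝓞 K')) (N₀ N₁ : ℕ)
    {H : Subgroup PGL(2, w.adicCompletion K')}
    (l : LKer PGL(2, w.adicCompletion K') (PGL(2, w.adicCompletion K') ⧸ H)) : Prop where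
  support : ∀ g, lkerFun l g ≠ 0 → g ∈ congrPGL w (natVal w N₀)
  inv : IsBiInvariant (congrPGL w (natVal w N₁)) (lkerFun l)

variable {H : Subgroup PGL(2, v.adicCompletion K)} {H' : Subgroup PGL(2, w.adicCompletion K')}

theorem isDeepLevel_of_eq (D : Depth w N₀ N₁ N) (hH : H = congrPGL v (natVal v N))
    (hH' : H' = congrPGL w (natVal w N)) :
    IsDeepLevel (Fermat.Agent.LT.Geom.pglEquiv P.aut) P.pglEmb (congrPGL w (bW w N₀))
      (congrPGL w (natVal w N₀)) (congrPGL w (natVal w N₁)) H' H := by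
  subst hH hH'
  exact P.isDeepLevel D

/-- **The transfer of an invariant matrix.** -/
def transfer (D : Depth w N₀ N₁ N) (hH : H = congrPGL v (natVal v N))
    (hH' : H' = congrPGL w (natVal w N))
    {l : LKer PGL(2, w.adicCompletion K') (PGL(2, w.adicCompletion K') ⧸ H')}
    (hl : IsDeepKer w N₀ N₁ l) : LKer PGL(2, v.adicCompletion K) (PGL(2, v.adicCompletion K) ⧸ H) :=
  transferKer (P.isDeepLevel_of_eq D hH hH') hl.inv

theorem placeEquiv_algebraMap (δ : PGL(2, K')) :
    Fermat.Agent.LT.Geom.pglEquiv P.aut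
        (Fermat.Agent.LT.Geom.pglMap (algebraMap K' (w.adicCompletion K')) δ) =
      Fermat.Agent.LT.Geom.pglMap (algebraMap K' (w.adicCompletion K'))
        (Fermat.Agent.LT.Geom.pglSigma σ δ) := by
  rw [Fermat.Agent.LT.Geom.pglSigma, Fermat.Agent.LT.Geom.pglEquiv_apply,
    Fermat.Agent.LT.Geom.pglEquiv_apply, Fermat.Agent.LT.Geom.pglMap_pglMap,
    Fermat.Agent.LT.Geom.pglMap_pglMap]
  congr 2
  refine RingHom.ext fun x => ?_
  show P.aut (algebraMap K' (w.adicCompletion K') x) = algebraMap K' (w.adicCompletion K') (σ x)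
  rw [algebraMap_adicCompletion]
  exact P.aut_coe x

theorem emb_comp_algebraMap :
    P.emb.comp (algebraMap K (v.adicCompletion K)) =
      (algebraMap K' (w.adicCompletion K')).comp (algebraMap K K') := by
  refine RingHom.ext fun x => ?_
  rw [RingHom.comp_apply, RingHom.comp_apply, algebraMap_adicCompletion, algebraMap_adicCompletion]
  exact P.emb_coe x

variable {V : ∀ u : HeightOneSpectrum (𝓞 K), Subgroup (GL (Fin 2) (u.adicCompletion K))}
  {V' : ∀ u : HeightOneSpectrum (𝓞 K'), Subgroup (GL (Fin 2) (u.adicCompletion K'))}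
  {p : HeightOneSpectrum (𝓞 K') → Prop}

theorem twistCoset (hσ : ∀ u, ∀ g ∈ V' (placePerm σ.toRingEquiv u), GeneralLinearGroup.map
      (completionEquiv σ.toRingEquiv (valuation_apply_placePerm σ.toRingEquiv u)).toRingHom g
        ∈ V' u) (hp : ∀ u, p u ↔ u = w)
    (z : ∀ j : Subtype p, LocY V' j.1) (hpw : p (placePerm σ.toRingEquiv w))
    (x : PGL(2, w.adicCompletion K')) (hx : z ⟨w, (hp w).2 rfl⟩ = (x : LocY V' w)) :
    cosetTwist σ.toRingEquiv hσ w (z ⟨_, hpw⟩) =
      ((Fermat.Agent.LT.Geom.pglEquiv P.aut x : _) : LocY V' w) := by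
  suffices key : ∀ (u : HeightOneSpectrum (𝓞 K')) (hu : u = w) (hpu : p u)
      (hv : ∀ a, w.valuation K' (σ.toRingEquiv a) = u.valuation K' a)
      (hmap : ∀ g ∈ V' u, GeneralLinearGroup.map
        (completionEquiv σ.toRingEquiv hv).toRingHom g ∈ V' w) (g : PGL(2, u.adicCompletion K')),
      z ⟨u, hpu⟩ = (g : LocY V' u) →
        ((Fermat.Agent.LT.Geom.pglMap (completionEquiv σ.toRingEquiv hv).toRingHom g : _) :
          LocY V' w) = ((Fermat.Agent.LT.Geom.pglEquiv P.aut x : _) : LocY V' w) by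
    obtain ⟨g, hg⟩ := QuotientGroup.mk_surjective (z ⟨_, hpw⟩)
    rw [← hg, cosetTwist_mk]
    exact key _ P.fixed_place hpw _ (hσ w) g hg.symm
  rintro u hu hpu hv hmap g hg
  subst u
  have hgx : (g : LocY V' w) = (x : LocY V' w) := hg.symm.trans hx
  rw [QuotientGroup.eq] at hgx ⊢
  obtain ⟨γ, hγ, he⟩ := Subgroup.mem_map.1 hgx
  refine Subgroup.mem_map.2 ⟨GeneralLinearGroup.map (completionEquiv σ.toRingEquiv hv).toRingHom γ,
    hmap γ hγ, ?_⟩
  rw [← Fermat.Agent.LT.Geom.pglMap_mk, he, map_mul, map_inv]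
  rfl

variable {π : HeightOneSpectrum (𝓞 K') → HeightOneSpectrum (𝓞 K)}
  {k : KerFamily V} {k' : KerFamily V'} {γ : PGL(2, K)} {δ : PGL(2, K')}

/-- **A deep place matches.** -/
theorem matchesAtPlace (hπ : IsPlaceCover π)
    (hσ : ∀ u, ∀ g ∈ V' (placePerm σ.toRingEquiv u), GeneralLinearGroup.map
      (completionEquiv σ.toRingEquiv (valuation_apply_placePerm σ.toRingEquiv u)).toRingHom g
        ∈ V' u)
    (hp : ∀ u, π u = v ↔ u = w) (D : Depth w N₀ N₁ N)
    (hV : (V v).map ProjGenLinGroup.mk = congrPGL v (natVal v N))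
    (hV' : (V' w).map ProjGenLinGroup.mk = congrPGL w (natVal w N))
    (hl : IsDeepKer w N₀ N₁ (k'.ker w)) (hk : k.ker v = P.transfer D hV hV' hl)
    (h0 : Fermat.Agent.LT.Geom.classInv γ ≠ 0) (h4 : Fermat.Agent.LT.Geom.classInv γ ≠ 4)
    (hN : Fermat.Agent.LT.Geom.twNorm (Fermat.Agent.LT.Geom.pglSigma σ) δ =
      Fermat.Agent.LT.Geom.pglMap (algebraMap K K') γ) :
    MatchesAtPlace hπ σ hσ k k' γ δ v := by
  classical
  letI := fibreAction (V' := V') hπ γ v
  letI := P.emb.toAlgebra
  haveI : CharZero (v.adicCompletion K) :=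
    charZero_of_injective_algebraMap (R := K) (algebraMap K _).injective
  set γv := Fermat.Agent.LT.Geom.pglMap (algebraMap K (v.adicCompletion K)) γ with hγv
  set δw := Fermat.Agent.LT.Geom.pglMap (algebraMap K' (w.adicCompletion K')) δ with hδw
  have hN' : twNorm (Fermat.Agent.LT.Geom.pglEquiv P.aut) δw = P.pglEmb γv := by
    rw [twNorm, hδw, placeEquiv_algebraMap, placeEquiv_algebraMap, ← map_mul, ← map_mul,
      show δ * Fermat.Agent.LT.Geom.pglSigma σ δ * Fermat.Agent.LT.Geom.pglSigma σ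
        (Fermat.Agent.LT.Geom.pglSigma σ δ) = Fermat.Agent.LT.Geom.pglMap (algebraMap K K') γ
        from hN,
      pglEmb, hγv, Fermat.Agent.LT.Geom.pglMap_pglMap, Fermat.Agent.LT.Geom.pglMap_pglMap,
      emb_comp_algebraMap]
  have hc0 : Fermat.Agent.LT.Geom.classInv γv ≠ 0 := by
    rw [hγv, Fermat.Agent.LT.Geom.classInv_pglMap]; exact (map_ne_zero _).2 h0
  have hc4 : Fermat.Agent.LT.Geom.classInv γv ≠ 4 := fun h =>
    h4 ((algebraMap K (v.adicCompletion K)).injective (by
      rw [map_ofNat]; rwa [hγv, Fermat.Agent.LT.Geom.classInv_pglMap] at h))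
  have hd0 : Fermat.Agent.LT.Geom.classInv (P.pglEmb γv) ≠ 0 := by
    rw [pglEmb, Fermat.Agent.LT.Geom.classInv_pglMap]; exact (map_ne_zero _).2 hc0
  have hd4 : Fermat.Agent.LT.Geom.classInv (P.pglEmb γv) ≠ 4 := fun h => hc4 (P.emb.injective (by
    rw [map_ofNat]; rwa [pglEmb, Fermat.Agent.LT.Geom.classInv_pglMap] at h))
  letI : MulAction (locTorus γ v) (LocY V' w) :=
    MulAction.compHom _ (P.pglEmb.comp (locTorus γ v).subtype)
  have hmatch := (P.isDeepLevel_of_eq D hV hV').hasFibreMatch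
    (F := lkerFun (k'.ker w)) hl.support (γ := γv) hN'
    (fun a b ha hb => commute_of_commute_regular hd0 hd4 ha hb)
    (fun δ' hδ' => exists_twConj_of_twNorm_eq P.algAut (fun y hy => P.mem_range_emb hy)
      P.algAut_ne_one P.aut_cube hc0 hc4 hN' hδ')
    (T := locTorus γ v) (locTorus γ v).subtype
    (fun t => Subgroup.mem_centralizer_singleton_iff.1 t.2) (fun _ _ => rfl) (fun _ _ => rfl)
    (fd := locDiag k γ v)
    (fun g => by
      rw [locDiag, hk, transfer, MulAction.Quotient.smul_coe, smul_eq_mul, ← hγv,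
        transferKer_apply, mul_assoc])
    (fv := fun c : LocY V' w => k'.ker w c
      (δw • (cosetTwist σ.toRingEquiv hσ w (TamePlace.fibrePoint hp c ⟨placePerm σ.toRingEquiv w, (hπ.map_placePerm σ w).trans ((hp w).2 rfl)⟩))))
    (fun x => by
      show k'.ker w _ _ = _
      rw [P.twistCoset hσ (p := fun u => π u = v) hp _ _ x
        (TamePlace.fibrePoint_apply hp _), MulAction.Quotient.smul_coe, smul_eq_mul,
        ← cosetKernel_lkerFun (k'.ker w), cosetKernel_mk, mul_assoc])
  refine hasFibreMatch_of_equiv (TamePlace.fibrePoint hp) (fun t c => ?_) hmatch fun c => ?_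
  · refine (TamePlace.fibreEval_bijective hp).1 ?_
    show TamePlace.fibrePoint hp (t • c) ⟨w, _⟩ = (t • TamePlace.fibrePoint hp c) ⟨w, _⟩
    rw [TamePlace.fibrePoint_apply, fibreAction_apply, TamePlace.fibrePoint_apply]
    rfl
  · have hw : ∀ j : {u // π u = v}, j = ⟨w, (hp w).2 rfl⟩ := fun j =>
      Subtype.ext ((hp j.1).1 j.2)
    rw [locTwDiag, finprod_eq_single _ (⟨w, (hp w).2 rfl⟩ : {u // π u = v})
      fun j hj => absurd (hw j) hj, TamePlace.fibrePoint_apply]
    rfl

/-- **A deep place without a local norm**: the fibre sums vanish. -/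
theorem vanishesAtPlace (D : Depth w N₀ N₁ N)
    (hV : (V v).map ProjGenLinGroup.mk = congrPGL v (natVal v N))
    (hH' : H' = congrPGL w (natVal w N))
    {l : LKer PGL(2, w.adicCompletion K') (PGL(2, w.adicCompletion K') ⧸ H')}
    (hl : IsDeepKer w N₀ N₁ l) (hk : k.ker v = P.transfer D hV hH' hl)
    {c : K} {hc : c ≠ 0} (hloc : ¬ Fermat.Agent.LT.Geom.IsLocalNorm σ c hc w) :
    VanishesAtPlace k (Fermat.Agent.LT.Geom.classRep c hc) v := by
  have hzero : ∀ y, locDiag k (Fermat.Agent.LT.Geom.classRep c hc) v y = 0 := by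
    intro y
    induction y using QuotientGroup.induction_on with | _ g => ?_
    rw [locDiag, hk, transfer, MulAction.Quotient.smul_coe, smul_eq_mul, transferKer_apply,
      ← mul_assoc]
    exact (P.isDeepLevel_of_eq D hV hH').transfer_eq_zero_of_no_norm
      (fun δ => Fermat.Agent.LT.Geom.twNorm_ne_of_not_isLocalNorm σ hloc P.continuous_aut
        P.aut_coe P.emb_coe δ) g
  exact hasFibreMatch_iff.2 ⟨fun y => some y, fun y => some y, isFibration_some _,
    isFibration_some _, fun m => by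
      unfold matchSum
      exact finsum_congr fun y => finsum_congr fun _ => hzero y⟩

end DeepPlace

end Fermat.Agent.Extra.LTGen.Deep

end
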