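import Fermat.Agent.LT.Tame.MatrixCube
import Mathlib.RingTheory.Valuation.Basic
import Mathlib.LinearAlgebra.Matrix.GeneralLinearGroup.Defs
import Mathlib.Algebra.Order.GroupWithZero.Canonical
import Mathlib.Tactic.FieldSimp
import Mathlib.Tactic.NoncommRing

/-!
# Cube roots of matrices deeply congruent to one

Over a valued field: cubing is injective up to conjugation and scalars on matrices congruent to one
modulo less than `18`; cube roots exist below `81` once a simple root lemma holds, with the loss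
`9`; Hilbert 90 for an automorphism of order three loses `9`.
-/

set_option autoImplicit false
set_option linter.unusedSectionVars false

noncomputable section

namespace Fermat.Agent.Extra.LTGen.Deep

open Matrix Fermat.Agent.LT.Tame

variable {L : Type*} [Field L] {Γ₀ : Type*} [LinearOrderedCommGroupWithZero Γ₀]
  (v : Valuation L Γ₀)

/-- Congruent to one within `b`, entrywise. -/
def Cong (b : Γ₀) (M : Matrix (Fin 2) (Fin 2) L) : Prop := ∀ i j, v ((M - 1) i j) ≤ b

/-- The root lemma needed: simple roots of small perturbations of `t = 1`. -/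
def HasSeriesRoot : Prop :=
  ∀ c₂ c₃ : L, v c₂ < 1 → v c₃ < 1 → ∃ t, v t ≤ 1 ∧ t + c₂ * t ^ 2 + c₃ * t ^ 3 = 1

variable {v}

theorem val_natCast_le (n : ℕ) : v (n : L) ≤ 1 := by
  induction n with
  | zero => simp
  | succ n ih => rw [Nat.cast_succ]; exact v.map_add_le ih (by rw [map_one])

theorem val_ofNat_le (n : ℕ) [n.AtLeastTwo] : v (OfNat.ofNat n : L) ≤ 1 :=
  le_of_eq_of_le (congrArg v (Nat.cast_ofNat (n := n)).symm) (val_natCast_le (v := v) n)

theorem val_mul_le {a c : L} {b : Γ₀} (ha : v a ≤ 1) (hc : v c ≤ b) : v (a * c) ≤ b := by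
  rw [map_mul]
  exact (mul_le_mul' ha hc).trans (one_mul b).le

theorem val_mul_le' {a c : L} {b : Γ₀} (ha : v a ≤ b) (hc : v c ≤ 1) : v (a * c) ≤ b := by
  rw [mul_comm]; exact val_mul_le hc ha

theorem val_sq_le {a : L} {b : Γ₀} (ha : v a ≤ b) (hb : b ≤ 1) : v (a ^ 2) ≤ b := by
  rw [sq]; exact val_mul_le (ha.trans hb) ha

theorem val_eq_of_sub_le {a c : L} {b : Γ₀} (h : v (a - c) ≤ b) (hb : b < v c) : v a = v c := by
  have := v.map_add_eq_of_lt_left (x := c) (y := a - c) (h.trans_lt hb)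
  rwa [add_sub_cancel] at this

theorem val_one_of_sub_le {a : L} {b : Γ₀} (h : v (a - 1) ≤ b) (hb : b < 1) : v a = 1 := by
  rw [val_eq_of_sub_le h (by rwa [map_one]), map_one]

theorem val_le_one_of_sub {a : L} {b : Γ₀} (h : v (a - 1) ≤ b) (hb : b ≤ 1) : v a ≤ 1 := by
  have := v.map_add_le (h.trans hb) (le_of_eq (map_one v))
  rwa [sub_add_cancel] at this

theorem val_div_le {a c : L} {b b' : Γ₀} (ha : v a ≤ b) (hc : v c = b') (_hb' : b' ≠ 0) :
    v (a / c) ≤ b / b' := by
  rw [map_div₀, hc]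
  exact div_le_div_of_nonneg_right ha zero_le

theorem val_three_pow_le {m n : ℕ} (h : m ≤ n) : v (3 : L) ^ n ≤ v (3 : L) ^ m :=
  pow_le_pow_right_of_le_one' (val_ofNat_le 3) h

theorem val_nine : v (9 : L) = v (3 : L) ^ 2 := by
  rw [← map_pow]; norm_num

namespace Cong

variable {b b' : Γ₀} {M N : Matrix (Fin 2) (Fin 2) L}

theorem one (b : Γ₀) : Cong v b (1 : Matrix (Fin 2) (Fin 2) L) := fun i j => by simp

theorem mono (h : Cong v b M) (hb : b ≤ b') : Cong v b' M := fun i j => (h i j).trans hb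

theorem le_one (h : Cong v b M) (hb : b ≤ 1) (i j : Fin 2) : v (M i j) ≤ 1 := by
  have h1 : v ((1 : Matrix (Fin 2) (Fin 2) L) i j) ≤ 1 := by
    rw [Matrix.one_apply]; split <;> simp
  have := v.map_add_le ((h i j).trans hb) h1
  rwa [Matrix.sub_apply, sub_add_cancel] at this

theorem mul (hM : Cong v b M) (hN : Cong v b N) (hb : b ≤ 1) : Cong v b (M * N) := by
  intro i j
  rw [show M * N - 1 = M * (N - 1) + (M - 1) by noncomm_ring, Matrix.add_apply]
  refine v.map_add_le ?_ (hM i j)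
  rw [Matrix.mul_apply]
  exact Valuation.map_sum_le _ fun k _ => val_mul_le (hM.le_one hb i k) (hN k j)

theorem pow (hM : Cong v b M) (hb : b ≤ 1) : ∀ n : ℕ, Cong v b (M ^ n)
  | 0 => by simpa using one b
  | n + 1 => by rw [pow_succ]; exact (Cong.pow hM hb n).mul hM hb

theorem smul (hM : Cong v b M) (hb : b ≤ 1) {a : L} (ha : v (a - 1) ≤ b) : Cong v b (a • M) := by
  intro i j
  rw [show a • M - 1 = (a - 1) • M + (M - 1) by rw [sub_smul, one_smul]; abel, Matrix.add_apply,
    Matrix.smul_apply, smul_eq_mul]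
  exact v.map_add_le (val_mul_le' ha (hM.le_one hb i j)) (hM i j)

theorem trace_sub (hM : Cong v b M) : v (trace M - 2) ≤ b := by
  rw [show trace M - 2 = (M - 1) 0 0 + (M - 1) 1 1 by simp [trace_fin_two]; ring]
  exact v.map_add_le (hM 0 0) (hM 1 1)

theorem det_sub (hM : Cong v b M) (hb : b ≤ 1) : v (det M - 1) ≤ b := by
  rw [show det M - 1 = (M - 1) 0 0 * M 1 1 + (M - 1) 1 1 - M 0 1 * (M - 1) 1 0 by
    simp [det_fin_two]; ring]
  exact v.map_sub_le (v.map_add_le (val_mul_le' (hM 0 0) (hM.le_one hb 1 1)) (hM 1 1))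
    (val_mul_le (hM.le_one hb 0 1) (hM 1 0))

theorem det_ne_zero (hM : Cong v b M) (hb : b < 1) : det M ≠ 0 := fun h => by
  have := hM.det_sub hb.le
  rw [h, zero_sub, Valuation.map_neg, map_one] at this
  exact absurd this (not_le.2 hb)

theorem inv (hM : Cong v b M) (hb : b < 1) (hMN : M * N = 1) : Cong v b N := by
  have hdet : v (det M) = 1 := val_one_of_sub_le (hM.det_sub hb.le) hb
  have hN : N = (det M)⁻¹ • M.adjugate := by
    calc N = ((det M)⁻¹ • (M.adjugate * M)) * N := by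
          rw [adjugate_mul, smul_smul, inv_mul_cancel₀ (hM.det_ne_zero hb), one_smul, one_mul]
      _ = _ := by rw [smul_mul_assoc, mul_assoc, hMN, mul_one]
  have hle : ∀ i j, v (N i j) ≤ 1 := fun i j => by
    rw [hN, Matrix.smul_apply, smul_eq_mul, map_mul, map_inv₀, hdet, inv_one, one_mul,
      adjugate_fin_two]
    fin_cases i <;> fin_cases j <;> simp [Valuation.map_neg, hM.le_one hb.le]
  intro i j
  rw [show N - 1 = -((M - 1) * N) by rw [sub_mul, hMN, one_mul]; abel, Matrix.neg_apply,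
    Valuation.map_neg, Matrix.mul_apply]
  exact Valuation.map_sum_le _ fun k _ => val_mul_le' (hM i k) (hle k j)

end Cong

variable {b : Γ₀}

theorem lt_one_of_lt_three {k : ℕ} (hb : b < v (3 : L) ^ k) : b < 1 :=
  hb.trans_le (pow_le_one' (val_ofNat_le 3) k)

theorem val_cube_factor {a a' : L} (ha : v (a - 1) ≤ b) (ha' : v (a' - 1) ≤ b)
    (hb : b < v (3 : L)) : v (a ^ 2 + a * a' + a' ^ 2) = v (3 : L) := by
  have hb1 : b ≤ 1 := hb.le.trans (val_ofNat_le 3)
  refine val_eq_of_sub_le (b := b) ?_ hb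
  rw [show a ^ 2 + a * a' + a' ^ 2 - 3 =
    (a - 1) * (a + 1) + ((a - 1) * a' + (a' - 1)) + (a' - 1) * (a' + 1) by ring]
  have h1 := val_le_one_of_sub ha hb1
  have h2 := val_le_one_of_sub ha' hb1
  exact v.map_add_le (v.map_add_le (val_mul_le' ha (v.map_add_le h1 (map_one v).le))
    (v.map_add_le (val_mul_le' ha h2) ha')) (val_mul_le' ha' (v.map_add_le h2 (map_one v).le))

/-- Cubing is injective on scalars congruent to one below `3`. -/
theorem eq_of_cube_scalar {a a' : L} (ha : v (a - 1) ≤ b) (ha' : v (a' - 1) ≤ b)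
    (hb : b < v (3 : L)) (h : a ^ 3 = a' ^ 3) : a = a' := by
  have hne : a ^ 2 + a * a' + a' ^ 2 ≠ 0 := fun h0 => by
    have := val_cube_factor ha ha' hb
    rw [h0, map_zero] at this
    rw [← this] at hb
    exact not_lt_zero hb
  exact sub_eq_zero.1 ((mul_eq_zero.1 (show (a - a') * (a ^ 2 + a * a' + a' ^ 2) = 0 by
    linear_combination h)).resolve_right hne)

theorem val_trace_factor {t t' d : L} (ht : v (t - 2) ≤ b) (ht' : v (t' - 2) ≤ b)
    (hd : v (d - 1) ≤ b) (hb : b < v (3 : L) ^ 2) :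
    v (t ^ 2 + t * t' + t' ^ 2 - 3 * d) = v (3 : L) ^ 2 := by
  have hb1 : b ≤ 1 := (lt_one_of_lt_three hb).le
  rw [← val_nine] at hb ⊢
  refine val_eq_of_sub_le (b := b) ?_ hb
  rw [show t ^ 2 + t * t' + t' ^ 2 - 3 * d - 9 =
    6 * (t - 2) + 6 * (t' - 2) + (t - 2) ^ 2 + (t - 2) * (t' - 2) + (t' - 2) ^ 2 - 3 * (d - 1) by
      ring]
  exact v.map_sub_le (v.map_add_le (v.map_add_le (v.map_add_le (v.map_add_le
    (val_mul_le (val_ofNat_le 6) ht) (val_mul_le (val_ofNat_le 6) ht')) (val_sq_le ht hb1))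
    (val_mul_le' ht (ht'.trans hb1))) (val_sq_le ht' hb1)) (val_mul_le (val_ofNat_le 3) hd)

theorem val_cayley_factor {t d : L} (ht : v (t - 2) ≤ b) (hd : v (d - 1) ≤ b)
    (hb : b < v (3 : L)) : v (t ^ 2 - d) = v (3 : L) := by
  have hb1 : b ≤ 1 := hb.le.trans (val_ofNat_le 3)
  refine val_eq_of_sub_le (b := b) ?_ hb
  rw [show t ^ 2 - d - 3 = 4 * (t - 2) + (t - 2) ^ 2 - (d - 1) by ring]
  exact v.map_sub_le (v.map_add_le (val_mul_le (val_ofNat_le 4) ht) (val_sq_le ht hb1)) hd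

theorem lt_val_three (hb : b < v (3 : L) ^ 2) : b < v (3 : L) := by
  simpa using hb.trans_le (val_three_pow_le (v := v) one_le_two)

/-- A matrix with trace near two and determinant near one is determined by its cube. -/
theorem eq_of_cube {U W : Matrix (Fin 2) (Fin 2) L} (htU : v (trace U - 2) ≤ b)
    (hdU : v (det U - 1) ≤ b) (htW : v (trace W - 2) ≤ b) (hdW : v (det W - 1) ≤ b)
    (hb : b < v (3 : L) ^ 2) (h : U ^ 3 = W ^ 3) : U = W := by
  have hd : det U = det W :=
    eq_of_cube_scalar hdU hdW (lt_val_three hb) (by rw [← det_pow, ← det_pow, h])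
  have ht : trace U = trace W := by
    have h0 : trace U ^ 3 - 3 * det U * trace U = trace W ^ 3 - 3 * det U * trace W := by
      rw [← trace_cube, h, trace_cube, hd]
    refine sub_eq_zero.1 ((mul_eq_zero.1 (show (trace U - trace W) *
      (trace U ^ 2 + trace U * trace W + trace W ^ 2 - 3 * det U) = 0 by
        linear_combination h0)).resolve_right fun h1 => ?_)
    have h2 := val_trace_factor htU htW hdU hb
    rw [h1, map_zero] at h2
    rw [← h2] at hb
    exact not_lt_zero hb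
  have hne : trace W ^ 2 - det W ≠ 0 := fun h0 => by
    have := val_cayley_factor htW hdW (lt_val_three hb)
    rw [h0, map_zero] at this
    have h3 := lt_val_three hb
    rw [← this] at h3
    exact not_lt_zero h3
  have eU := cube_identity U
  rw [h, ht, hd, ← cube_identity W] at eU
  exact smul_right_injective _ hne eU

/-- **Cubing is injective up to conjugation and scalars.** -/
theorem exists_smul_of_conj_cube {U V : Matrix (Fin 2) (Fin 2) L} (hU : Cong v b U)
    (hV : Cong v b V) (hb : b < v (2 : L) * v (3 : L) ^ 2) {X Y : Matrix (Fin 2) (Fin 2) L}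
    (hXY : X * Y = 1) {c : L} (h : Y * U ^ 3 * X = c • V ^ 3) :
    ∃ s : L, s ≠ 0 ∧ Y * U * X = s • V := by
  have hf : v (2 : L) ≤ 1 := val_ofNat_le 2
  have he : v (3 : L) ^ 2 ≤ 1 := pow_le_one' (val_ofNat_le 3) 2
  have hb2 : b < v (2 : L) := hb.trans_le (mul_le_of_le_one_right' he)
  have hb9 : b < v (3 : L) ^ 2 := hb.trans_le (mul_le_of_le_one_left' hf)
  have hb1 : b < 1 := hb2.trans_le hf
  have hf0 : v (2 : L) ≠ 0 := fun h0 => by rw [h0] at hb2; exact not_lt_zero hb2
  have h2 : (2 : L) ≠ 0 := (map_ne_zero v).1 hf0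
  have hconj_tr : ∀ M, trace (Y * M * X) = trace M := fun M => by
    rw [trace_mul_cycle, hXY, one_mul]
  have hconj_det : ∀ M, det (Y * M * X) = det M := fun M => by
    rw [det_mul, det_mul, mul_comm (det Y), mul_assoc, ← det_mul, mul_eq_one_comm.1 hXY, det_one,
      mul_one]
  have hU3 := hU.pow hb1.le 3
  have hV3 := hV.pow hb1.le 3
  have htr : trace (U ^ 3) = c * trace (V ^ 3) := by
    rw [← hconj_tr, h, trace_smul, smul_eq_mul]
  have hdet : det (U ^ 3) = c ^ 2 * det (V ^ 3) := by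
    rw [← hconj_det, h, det_smul, Fintype.card_fin]
  have hvt : v (trace (V ^ 3)) = v (2 : L) := val_eq_of_sub_le hV3.trace_sub hb2
  have hc : v (c - 1) ≤ b / v (2 : L) := by
    rw [le_div_iff₀ (zero_lt_iff.2 hf0), ← hvt, ← map_mul]
    rw [show (c - 1) * trace (V ^ 3) = (trace (U ^ 3) - 2) - (trace (V ^ 3) - 2) by
      rw [htr]; ring]
    exact v.map_sub_le hU3.trace_sub hV3.trace_sub
  set β := b / v (2 : L) with hβ
  have hbβ : b ≤ β := by
    rw [hβ, le_div_iff₀ (zero_lt_iff.2 hf0)]; exact mul_le_of_le_one_right' hf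
  have hβ9 : β < v (3 : L) ^ 2 := by
    rw [hβ, div_lt_iff₀ (zero_lt_iff.2 hf0), mul_comm]; exact hb
  have hβ1 : β < 1 := hβ9.trans_le he
  set ρ := det U / det V with hρ
  have hvV : v (det V) = 1 := val_one_of_sub_le (hV.det_sub hb1.le) hb1
  have hdV : det V ≠ 0 := hV.det_ne_zero hb1
  have hdU : det U ≠ 0 := hU.det_ne_zero hb1
  have hρ1 : v (ρ - 1) ≤ b := by
    rw [show ρ - 1 = ((det U - 1) - (det V - 1)) / det V by rw [hρ]; field_simp; ring, map_div₀,
      hvV, div_one]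
    exact v.map_sub_le (hU.det_sub hb1.le) (hV.det_sub hb1.le)
  have hρ0 : ρ ≠ 0 := div_ne_zero hdU hdV
  have hc2 : c ^ 2 = ρ ^ 3 := by
    rw [det_pow, det_pow] at hdet
    rw [hρ, div_pow, eq_div_iff (pow_ne_zero 3 hdV), hdet]
  set s := c / ρ with hs
  have hs2 : s ^ 2 = ρ := by rw [hs, div_pow, hc2]; field_simp
  have hc0 : c ≠ 0 := fun h0 => by
    rw [h0, zero_pow two_ne_zero] at hc2; exact pow_ne_zero 3 hρ0 hc2.symm
  have hs3 : s ^ 3 = c := by
    rw [hs, div_pow, ← hc2]; field_simp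
  have hs1 : v (s - 1) ≤ β := by
    have hvρ : v ρ = 1 := val_one_of_sub_le hρ1 hb1
    rw [show s - 1 = ((c - 1) - (ρ - 1)) / ρ by rw [hs]; field_simp; ring, map_div₀, hvρ, div_one]
    exact v.map_sub_le hc (hρ1.trans hbβ)
  refine ⟨s, div_ne_zero hc0 hρ0, eq_of_cube (b := β) ?_ ?_ ((hV.mono hbβ).smul hβ1.le hs1).trace_sub
    (((hV.mono hbβ).smul hβ1.le hs1).det_sub hβ1.le) hβ9 ?_⟩
  · rw [hconj_tr]; exact hU.trace_sub.trans hbβ
  · rw [hconj_det]; exact (hU.det_sub hb1.le).trans hbβ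
  · have hYUX : (Y * U * X) ^ 3 = Y * U ^ 3 * X := by
      simp only [pow_succ, pow_zero, one_mul, mul_assoc]
      rw [← mul_assoc X Y, hXY, one_mul, ← mul_assoc X Y, hXY, one_mul]
    rw [hYUX, h, smul_pow, hs3]

/-- Cube roots of scalars. -/
theorem exists_root_scalar (hr : HasSeriesRoot v) {a : L} (ha : v (a - 1) ≤ b)
    (hb : b < v (3 : L) ^ 2) : ∃ d : L, d ^ 3 = a ∧ v (d - 1) ≤ b / v (3 : L) := by
  have he0 : v (3 : L) ≠ 0 := fun h0 => by
    rw [h0, zero_pow two_ne_zero] at hb; exact not_lt_zero hb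
  have h3 : (3 : L) ≠ 0 := (map_ne_zero v).1 he0
  have hpos : 0 < v (3 : L) := zero_lt_iff.2 he0
  have hbe : b < v (3 : L) := lt_val_three hb
  set x := a - 1
  obtain ⟨t, ht, hts⟩ := hr (x / 3) (x ^ 2 / 27)
    (by rw [map_div₀, div_lt_one₀ hpos]; exact ha.trans_lt hbe)
    (by
      have h27 : v (27 : L) = v (3 : L) ^ 3 := by rw [← map_pow]; norm_num
      rw [map_div₀, h27, div_lt_one₀ (pow_pos hpos 3), map_pow, sq, pow_succ]
      exact mul_lt_mul'' (ha.trans_lt hb) (ha.trans_lt hbe) zero_le zero_le)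
  have h27' : (27 : L) ≠ 0 := by
    rw [show (27 : L) = 3 ^ 3 by norm_num]
    exact pow_ne_zero 3 h3
  refine ⟨1 + x / 3 * t, ?_, ?_⟩
  · calc (1 + x / 3 * t) ^ 3 = 1 + x * (t + x / 3 * t ^ 2 + x ^ 2 / 27 * t ^ 3) := by
          field_simp; ring
      _ = a := by rw [hts, mul_one, add_sub_cancel]
  · rw [add_sub_cancel_left]
    exact val_mul_le' (val_div_le ha rfl he0) ht

/-- **Cube roots of matrices.** -/
theorem exists_root (hr : HasSeriesRoot v) {N : Matrix (Fin 2) (Fin 2) L} (hN : Cong v b N)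
    (hb : b < v (3 : L) ^ 4) : ∃ U, Cong v (b / v (3 : L) ^ 2) U ∧ U ^ 3 = N := by
  set e := v (3 : L) with he
  have he1 : e ≤ 1 := val_ofNat_le 3
  have he0 : e ≠ 0 := fun h0 => by rw [h0, zero_pow four_ne_zero] at hb; exact not_lt_zero hb
  have hpos : 0 < e := zero_lt_iff.2 he0
  have hb2 : b < e ^ 2 := hb.trans_le (val_three_pow_le (by norm_num))
  have hb1 : b < 1 := lt_one_of_lt_three hb
  obtain ⟨d, hd3, hd⟩ := exists_root_scalar hr (hN.det_sub hb1.le) hb2
  have hd' : v (d - 1) ≤ b / e ^ 2 := hd.trans (by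
    refine div_le_div_of_nonneg_left zero_le (pow_pos hpos 2) ?_
    calc e ^ 2 = e * e := sq e
      _ ≤ e := mul_le_of_le_one_left' he1)
  set β := b / e ^ 2 with hβ
  have hβe : β < e ^ 2 := by
    rw [hβ, div_lt_iff₀ (pow_pos hpos 2), ← pow_add]; exact hb
  have hbβ : b ≤ β := by
    rw [hβ, le_div_iff₀ (pow_pos hpos 2)]; exact mul_le_of_le_one_right' (pow_le_one' he1 2)
  have hβ3 : β < e := lt_val_three hβe
  have hβ1 : β < 1 := hβe.trans_le (pow_le_one' he1 2)
  set R := trace N - 2 + 6 * (d - 1) with hR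
  have hRb : v R ≤ b := by
    refine v.map_add_le hN.trace_sub ?_
    rw [show (6 : L) * (d - 1) = 2 * (3 * (d - 1)) by ring]
    refine val_mul_le (val_ofNat_le 2) ?_
    rw [map_mul, mul_comm]
    calc v (d - 1) * e ≤ b / e * e := mul_le_mul' hd le_rfl
      _ = b := div_mul_cancel₀ b he0
  set A := 12 - 3 * d with hA
  have hvA : v A = e ^ 2 := by
    rw [← val_nine]
    refine val_eq_of_sub_le (b := β) ?_ (by rwa [val_nine])
    rw [show A - 9 = -(3 * (d - 1)) by rw [hA]; ring, Valuation.map_neg]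
    exact val_mul_le (val_ofNat_le 3) hd'
  have hA0 : A ≠ 0 := (map_ne_zero v).1 (hvA ▸ pow_ne_zero 2 he0)
  obtain ⟨τ, hτ, hτs⟩ := hr (6 * R / A ^ 2) (R ^ 2 / A ^ 3)
    (by
      rw [map_div₀, map_pow, hvA, ← pow_mul, div_lt_one₀ (pow_pos hpos _)]
      exact (val_mul_le (val_ofNat_le 6) hRb).trans_lt hb)
    (by
      rw [map_div₀, map_pow, map_pow, hvA, ← pow_mul, div_lt_one₀ (pow_pos hpos _)]
      calc v R ^ 2 ≤ b * b := by rw [sq]; exact mul_le_mul' hRb hRb
        _ < e ^ 4 * e ^ 2 := mul_lt_mul'' hb hb2 zero_le zero_le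
        _ = e ^ (2 * 3) := by rw [← pow_add])
  set z := R / A * τ with hz
  have hvz : v z ≤ β := val_mul_le' (val_div_le hRb hvA (pow_ne_zero 2 he0)) hτ
  set t := 2 + z with ht
  have htT : trace N = t ^ 3 - 3 * d * t := by
    have : A * z + 6 * z ^ 2 + z ^ 3 = R := by
      calc A * z + 6 * z ^ 2 + z ^ 3
          = R * (τ + 6 * R / A ^ 2 * τ ^ 2 + R ^ 2 / A ^ 3 * τ ^ 3) := by
            rw [hz]; field_simp
        _ = R := by rw [hτs, mul_one]
    rw [hR, hA] at this
    rw [ht]; linear_combination (-1 : L) * this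
  have hvt : v (t - 2) ≤ β := by rw [ht, add_sub_cancel_left]; exact hvz
  have hD : v (t ^ 2 - d) = e := val_cayley_factor hvt hd' hβ3
  have hD0 : t ^ 2 - d ≠ 0 := (map_ne_zero v).1 (hD ▸ he0)
  set U := (t ^ 2 - d)⁻¹ • (N + (t * d) • (1 : Matrix (Fin 2) (Fin 2) L)) with hU
  have htrU : trace U = t := by
    rw [trace_fin_two] at htT
    simp [hU, trace_fin_two]
    field_simp
    linear_combination htT
  have hdetU : det U = d := by
    rw [det_fin_two] at hd3
    rw [trace_fin_two] at htT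
    simp [hU, det_fin_two]
    field_simp
    linear_combination (t * d) * htT - hd3
  refine ⟨U, fun i j => ?_, ?_⟩
  · have hnum : v ((N - 1) i j + (1 + t * d - t ^ 2 + d) * (1 : Matrix (Fin 2) (Fin 2) L) i j) ≤
        b / e := by
      refine v.map_add_le ((hN i j).trans ?_) (val_mul_le' ?_ ?_)
      · rw [le_div_iff₀ hpos]; exact mul_le_of_le_one_right' he1
      · rw [show 1 + t * d - t ^ 2 + d = 3 * (d - 1) - 3 * z + (z * (d - 1) - z ^ 2) by
          rw [ht]; ring]
        have h3β : ∀ {x : L}, v x ≤ β → v (3 * x) ≤ b / e := fun {x} hx => by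
          rw [map_mul]
          calc e * v x ≤ e * β := mul_le_mul' le_rfl hx
            _ = b / e := by rw [hβ]; field_simp
        have hsq : β * β ≤ b / e := by
          calc β * β ≤ e * β := mul_le_mul' hβ3.le le_rfl
            _ = b / e := by rw [hβ]; field_simp
        refine v.map_add_le (v.map_sub_le (h3β hd') (h3β hvz)) (v.map_sub_le ?_ ?_)
        · rw [map_mul]; exact (mul_le_mul' hvz hd').trans hsq
        · rw [map_pow, sq]; exact (mul_le_mul' hvz hvz).trans hsq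
      · rw [Matrix.one_apply]; split <;> simp
    have hij : (U - 1) i j = ((N - 1) i j +
        (1 + t * d - t ^ 2 + d) * (1 : Matrix (Fin 2) (Fin 2) L) i j) / (t ^ 2 - d) := by
      simp only [hU, Matrix.sub_apply, Matrix.smul_apply, Matrix.add_apply, smul_eq_mul]
      field_simp
      ring
    rw [hij, map_div₀, hD]
    calc _ ≤ b / e / e := div_le_div_of_nonneg_right hnum zero_le
      _ = β := by rw [hβ, sq, div_div]
  · have := cube_identity U
    rw [htrU, hdetU, show (t ^ 2 - d) • U = N + (t * d) • (1 : Matrix (Fin 2) (Fin 2) L) by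
      rw [hU, smul_smul, mul_inv_cancel₀ hD0, one_smul]] at this
    exact (add_right_cancel this).symm

/-- Roots of close cubes are close. -/
theorem val_sub_root {U U' : Matrix (Fin 2) (Fin 2) L} (hU : Cong v b U) (hU' : Cong v b U')
    (hb : b < v (3 : L) ^ 2) {g : Γ₀} (h : ∀ i j, v ((U' ^ 3 - U ^ 3) i j) ≤ g)
    (i j : Fin 2) : v ((U' - U) i j) ≤ g / v (3 : L) ^ 3 := by
  set e := v (3 : L) with he
  have he1 : e ≤ 1 := val_ofNat_le 3
  have he0 : e ≠ 0 := fun h0 => by rw [h0, zero_pow two_ne_zero] at hb; exact not_lt_zero hb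
  have hpos : 0 < e := zero_lt_iff.2 he0
  have hb1 : b ≤ 1 := (lt_one_of_lt_three hb).le
  have hbe : b < e := lt_val_three hb
  have hint : ∀ i j, v ((U ^ 3) i j) ≤ 1 := (hU.pow hb1 3).le_one hb1
  have hint' : ∀ i j, v ((U' ^ 3) i j) ≤ 1 := (hU'.pow hb1 3).le_one hb1
  have hdet : v (det (U' ^ 3) - det (U ^ 3)) ≤ g := by
    have h' : ∀ i j, v ((U' ^ 3) i j - (U ^ 3) i j) ≤ g := h
    rw [det_fin_two, det_fin_two,
      show (U' ^ 3) 0 0 * (U' ^ 3) 1 1 - (U' ^ 3) 0 1 * (U' ^ 3) 1 0 -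
        ((U ^ 3) 0 0 * (U ^ 3) 1 1 - (U ^ 3) 0 1 * (U ^ 3) 1 0) =
        ((U' ^ 3) 0 0 - (U ^ 3) 0 0) * (U' ^ 3) 1 1 +
        (U ^ 3) 0 0 * ((U' ^ 3) 1 1 - (U ^ 3) 1 1) -
        (((U' ^ 3) 0 1 - (U ^ 3) 0 1) * (U' ^ 3) 1 0 +
        (U ^ 3) 0 1 * ((U' ^ 3) 1 0 - (U ^ 3) 1 0)) by ring]
    exact v.map_sub_le (v.map_add_le (val_mul_le' (h' 0 0) (hint' 1 1))
      (val_mul_le (hint 0 0) (h' 1 1))) (v.map_add_le (val_mul_le' (h' 0 1) (hint' 1 0))
      (val_mul_le (hint 0 1) (h' 1 0)))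
  have hd : v (det U' - det U) ≤ g / e := by
    rw [le_div_iff₀ hpos, he,
      ← val_cube_factor (hU'.det_sub hb1) (hU.det_sub hb1) hbe, ← map_mul]
    convert hdet using 2
    rw [det_pow, det_pow]; ring
  have htr : v (trace U' - trace U) ≤ g / e ^ 2 := by
    rw [le_div_iff₀ (pow_pos hpos 2), he,
      ← val_trace_factor hU'.trace_sub hU.trace_sub (hU'.det_sub hb1) hb, ← map_mul]
    rw [show (trace U' - trace U) * (trace U' ^ 2 + trace U' * trace U + trace U ^ 2 - 3 * det U') =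
        (trace (U' ^ 3) - trace (U ^ 3)) + trace U * (3 * (det U' - det U)) by
      rw [trace_cube, trace_cube]; ring]
    refine v.map_add_le ?_ (val_mul_le ?_ ?_)
    · rw [← trace_sub, trace_fin_two]
      exact v.map_add_le (h 0 0) (h 1 1)
    · rw [trace_fin_two]; exact v.map_add_le (hU.le_one hb1 0 0) (hU.le_one hb1 1 1)
    · rw [map_mul, mul_comm]
      calc v (det U' - det U) * e ≤ g / e * e := mul_le_mul' hd le_rfl
        _ = g := div_mul_cancel₀ g he0
  set G := g / e ^ 2 with hG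
  have hgG : g ≤ G := by
    rw [hG, le_div_iff₀ (pow_pos hpos 2)]; exact mul_le_of_le_one_right' (pow_le_one' he1 2)
  have hdG : v (det U' - det U) ≤ G := hd.trans (by
    refine div_le_div_of_nonneg_left zero_le (pow_pos hpos 2) ?_
    calc e ^ 2 = e * e := sq e
      _ ≤ e := mul_le_of_le_one_left' he1)
  have ht1 : ∀ {M : Matrix (Fin 2) (Fin 2) L}, Cong v b M → v (trace M) ≤ 1 := fun {M} hM => by
    rw [trace_fin_two]; exact v.map_add_le (hM.le_one hb1 0 0) (hM.le_one hb1 1 1)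
  have key : (trace U' ^ 2 - det U') * (U' - U) i j =
      (U' ^ 3 - U ^ 3) i j + ((trace U' - trace U) * det U' + trace U * (det U' - det U)) *
        (1 : Matrix (Fin 2) (Fin 2) L) i j -
      ((trace U' - trace U) * (trace U' + trace U) - (det U' - det U)) * U i j := by
    have e1 := congrFun (congrFun (cube_identity U') i) j
    have e2 := congrFun (congrFun (cube_identity U) i) j
    simp only [Matrix.smul_apply, Matrix.add_apply, smul_eq_mul] at e1 e2
    simp only [Matrix.sub_apply]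
    linear_combination e1 - e2
  have hle : v ((trace U' ^ 2 - det U') * (U' - U) i j) ≤ G := by
    rw [key]
    refine v.map_sub_le (v.map_add_le ((h i j).trans hgG) (val_mul_le' (v.map_add_le
      (val_mul_le' htr (val_le_one_of_sub (hU'.det_sub hb1) hb1)) (val_mul_le (ht1 hU) hdG)) ?_))
      (val_mul_le' (v.map_sub_le (val_mul_le' htr (v.map_add_le (ht1 hU') (ht1 hU))) hdG)
        (hU.le_one hb1 i j))
    rw [Matrix.one_apply]; split <;> simp
  rw [map_mul, val_cayley_factor hU'.trace_sub (hU'.det_sub hb1) hbe, mul_comm,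
    ← le_div_iff₀ hpos] at hle
  refine hle.trans (le_of_eq ?_)
  rw [hG, div_div, ← pow_succ]

/-- **Hilbert 90 on deep matrices.** -/
theorem exists_h1 (hr : HasSeriesRoot v) (σ : L ≃+* L) (hσv : ∀ x, v (σ x) = v x)
    (hord : ∀ x, σ (σ (σ x)) = x) {E : Matrix (Fin 2) (Fin 2) L} (hE : Cong v b E)
    (hb : b < v (3 : L) ^ 3) {c : L}
    (hN : E * σ.toRingHom.mapMatrix E * σ.toRingHom.mapMatrix (σ.toRingHom.mapMatrix E) =
      c • (1 : Matrix (Fin 2) (Fin 2) L)) :
    ∃ (X : Matrix (Fin 2) (Fin 2) L) (r : L), Cong v (b / v (3 : L) ^ 2) X ∧ r ≠ 0 ∧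
      E * σ.toRingHom.mapMatrix X = r • X := by
  set e := v (3 : L) with he
  set s := σ.toRingHom with hs
  have hsa : ∀ x, s x = σ x := fun _ => rfl
  have he1 : e ≤ 1 := val_ofNat_le 3
  have he0 : e ≠ 0 := fun h0 => by rw [h0, zero_pow three_ne_zero] at hb; exact not_lt_zero hb
  have hpos : 0 < e := zero_lt_iff.2 he0
  have h3 : (3 : L) ≠ 0 := (map_ne_zero v).1 he0
  have hb1 : b < 1 := lt_one_of_lt_three hb
  have hb2 : b < e ^ 2 := hb.trans_le (val_three_pow_le (by norm_num))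
  have hsC : ∀ {β : Γ₀} {M : Matrix (Fin 2) (Fin 2) L}, Cong v β M → Cong v β (s.mapMatrix M) := by
    intro β M hM i j
    rw [show s.mapMatrix M - 1 = s.mapMatrix (M - 1) by rw [map_sub, map_one]]
    exact (hσv _).le.trans (hM i j)
  have hc : v (c - 1) ≤ b := by
    have hcC : Cong v b (c • (1 : Matrix (Fin 2) (Fin 2) L)) :=
      hN ▸ (hE.mul (hsC hE) hb1.le).mul (hsC (hsC hE)) hb1.le
    simpa using hcC 0 0
  have hσc : s c = c := by
    have h3' : s.mapMatrix (s.mapMatrix (s.mapMatrix E)) = E := by ext i j; simp [hs, hord]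
    have hsN : s.mapMatrix E * s.mapMatrix (s.mapMatrix E) * E = s c • 1 := by
      have := congrArg s.mapMatrix hN
      rw [map_mul, map_mul, h3'] at this
      rw [this]; ext i j; by_cases hij : i = j <;> simp [Matrix.map_apply, hij]
    have h1 : c • E = E * (s c • 1) := by
      rw [← hsN, ← mul_assoc, ← mul_assoc, hN, smul_mul_assoc, one_mul]
    rw [mul_smul_comm, mul_one] at h1
    have hE0 : E ≠ 0 := fun h0 => hE.det_ne_zero hb1 (by rw [h0]; simp)
    exact (smul_left_injective L hE0 h1).symm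
  obtain ⟨r, hr3, hr1⟩ := exists_root_scalar hr hc hb2
  set β := b / e with hβ
  have hβ2 : β < e ^ 2 := by rw [hβ, div_lt_iff₀ hpos, ← pow_succ]; exact hb
  have hβe : β < e := lt_val_three hβ2
  have hβ1 : β < 1 := hβe.trans_le he1
  have hσr : s r = r := eq_of_cube_scalar (b := β)
    (by rw [show s r - 1 = s (r - 1) by rw [map_sub, map_one]]; exact (hσv _).le.trans hr1) hr1
    hβe (by rw [← map_pow, hr3, hσc])
  have hvr : v r = 1 := val_one_of_sub_le hr1 hβ1
  have hr0 : r ≠ 0 := (map_ne_zero v).1 (hvr ▸ one_ne_zero)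
  set F := r⁻¹ • E with hF
  have hFC : Cong v β F := by
    refine (hE.mono ?_).smul hβ1.le ?_
    · rw [hβ, le_div_iff₀ hpos]; exact mul_le_of_le_one_right' he1
    · rw [show r⁻¹ - 1 = -(r - 1) / r by field_simp; ring, map_div₀, hvr, div_one,
        Valuation.map_neg]
      exact hr1
  have hsF : s.mapMatrix F = r⁻¹ • s.mapMatrix E := by
    ext i j; simp [hF, Matrix.map_apply, hσr]
  have hFn : F * s.mapMatrix F * s.mapMatrix (s.mapMatrix F) = 1 := by
    have hsF2 : s.mapMatrix (s.mapMatrix F) = r⁻¹ • s.mapMatrix (s.mapMatrix E) := by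
      ext i j; simp [hF, Matrix.map_apply, hσr]
    rw [hsF2, hsF]
    simp only [hF, smul_mul_assoc, mul_smul_comm, smul_smul]
    rw [hN, smul_smul, ← hr3, show r⁻¹ * (r⁻¹ * r⁻¹) * r ^ 3 = 1 by field_simp, one_smul]
  set X := (3 : L)⁻¹ • (1 + F + F * s.mapMatrix F) with hX
  refine ⟨X, r, ?_, hr0, ?_⟩
  · intro i j
    have : (X - 1) i j = ((F - 1) i j + (F * s.mapMatrix F - 1) i j) / 3 := by
      simp only [hX, Matrix.sub_apply, Matrix.smul_apply, Matrix.add_apply, smul_eq_mul]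
      field_simp
      ring
    rw [this]
    refine (val_div_le (v.map_add_le (hFC i j) ((hFC.mul (hsC hFC) hβ1.le) i j)) rfl he0).trans
      (le_of_eq ?_)
    rw [hβ, div_div, sq]
  · have hs3 : s.mapMatrix X =
        (3 : L)⁻¹ • (1 + s.mapMatrix F + s.mapMatrix F * s.mapMatrix (s.mapMatrix F)) := by
      rw [← map_mul s.mapMatrix F, ← map_one s.mapMatrix, ← map_add, ← map_add]
      ext i j
      simp [hX, Matrix.map_apply, mul_add, map_ofNat]
    have hEF : E = r • F := by rw [hF, smul_smul, mul_inv_cancel₀ hr0, one_smul]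
    rw [hEF, smul_mul_assoc, hs3, mul_smul_comm]
    congr 1
    rw [hX, mul_add, mul_add, mul_one, ← mul_assoc, hFn]
    congr 1
    abel

end Fermat.Agent.Extra.LTGen.Deep

end
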